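import Fermat.Agent.LT.MultOne.StrongApprox

set_option autoImplicit false

/-!
# The standard additive character of the finite adeles
-/

noncomputable section

open NumberField IsDedekindDomain WithZero Filter
open scoped Real

local notation "I" => Complex.I

namespace FermatAgent.LT

variable {K : Type*} [Field K] [NumberField K]

/-- `exp (2πi ∑_w 2 Re w(x))`, the phase of the waves. -/
def phaseInf (x : K) : ℂ :=
  Complex.exp (2 * π * I * ((∑ w : InfinitePlace K, 2 * (w.embedding x).re : ℝ) : ℂ))

theorem phaseInf_zero : phaseInf (0 : K) = 1 := by simp [phaseInf]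

theorem phaseInf_add (x y : K) : phaseInf (x + y) = phaseInf x * phaseInf y := by
  rw [phaseInf, phaseInf, phaseInf, ← Complex.exp_add]
  simp only [map_add, Complex.add_re, mul_add, Finset.sum_add_distrib, Complex.ofReal_add]

variable [IsTotallyComplex K]

theorem sum_two_re_eq_trace (x : K) :
    (((∑ w : InfinitePlace K, 2 * (w.embedding x).re : ℝ)) : ℂ) =
      ((Algebra.trace ℚ K x : ℚ) : ℂ) := by
  classical
  have h1 : ((Algebra.trace ℚ K x : ℚ) : ℂ) = ∑ φ : K →+* ℂ, φ x := by
    rw [show ((Algebra.trace ℚ K x : ℚ) : ℂ) = algebraMap ℚ ℂ (Algebra.trace ℚ K x) from rfl,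
      trace_eq_sum_embeddings ℂ]
    exact Fintype.sum_equiv (RingHom.equivRatAlgHom (R := K) (S := ℂ)).symm _ _ fun φ => rfl
  rw [h1, ← Finset.sum_fiberwise Finset.univ InfinitePlace.mk, Complex.ofReal_sum]
  refine Finset.sum_congr rfl fun w _ => ?_
  have hc : ¬ ComplexEmbedding.IsReal w.embedding :=
    IsTotallyComplex.complexEmbedding_not_isReal _
  have hset : (Finset.univ.filter fun φ : K →+* ℂ => InfinitePlace.mk φ = w) =
      {w.embedding, ComplexEmbedding.conjugate w.embedding} := by
    ext φ
    rw [Finset.mem_filter, Finset.mem_insert, Finset.mem_singleton]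
    constructor
    · rintro ⟨-, rfl⟩
      rcases InfinitePlace.embedding_mk_eq φ with h | h
      · exact Or.inl h.symm
      · exact Or.inr (by rw [h]; simp [ComplexEmbedding.conjugate])
    · rintro (rfl | rfl)
      · exact ⟨Finset.mem_univ _, InfinitePlace.mk_embedding w⟩
      · exact ⟨Finset.mem_univ _, by rw [InfinitePlace.mk_conjugate_eq, InfinitePlace.mk_embedding]⟩
  rw [hset, Finset.sum_pair (fun h => hc (ComplexEmbedding.isReal_iff.mpr h.symm)),
    ComplexEmbedding.conjugate_coe_eq, Complex.add_conj]

theorem phaseInf_eq_exp_trace (x : K) :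
    phaseInf x = Complex.exp (2 * π * I * ((Algebra.trace ℚ K x : ℚ) : ℂ)) := by
  rw [phaseInf, sum_two_re_eq_trace]

theorem phaseInf_int (x : 𝓞 K) : phaseInf (x : K) = 1 := by
  rw [phaseInf_eq_exp_trace]
  have h : Algebra.trace ℚ K (x : K) = algebraMap ℤ ℚ (Algebra.trace ℤ (𝓞 K) x) :=
    Algebra.trace_localization (Rₘ := ℚ) (Sₘ := K) ℤ (nonZeroDivisors ℤ) x
  rw [h]
  refine Complex.exp_eq_one_iff.mpr ⟨Algebra.trace ℤ (𝓞 K) x, ?_⟩
  rw [show ((algebraMap ℤ ℚ) (Algebra.trace ℤ (𝓞 K) x) : ℂ) =
    ((Algebra.trace ℤ (𝓞 K) x : ℤ) : ℂ) by simp]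
  ring

omit [IsTotallyComplex K] in
theorem exists_int_of_small_zero {b : K}
    (h : algebraMap K (Adf K) b ∈ smallAdeles (0 : HeightOneSpectrum (𝓞 K) → ℕ)) :
    ∃ x : 𝓞 K, (x : K) = b :=
  HeightOneSpectrum.mem_integers_of_valuation_le_one K b fun v => by
    have := h v
    rw [adele_algebraMap_apply, valued_loc] at this
    simpa using this

omit [IsTotallyComplex K] in
theorem exists_rat_int (a : Adf K) :
    ∃ b : K, a - algebraMap K (Adf K) b ∈ smallAdeles (0 : HeightOneSpectrum (𝓞 K) → ℕ) :=
  exists_rat_near a 0 (Filter.Eventually.of_forall fun _ => rfl)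

/-- The additive character of the finite adeles: trivial on integral adeles, the phase of the
waves on rationals. -/
def adelicChar : AddChar (Adf K) ℂ where
  toFun a := phaseInf (exists_rat_int a).choose
  map_zero_eq_one' := by
    have h := (exists_rat_int (0 : Adf K)).choose_spec
    rw [zero_sub, neg_mem_iff] at h
    obtain ⟨x, hx⟩ := exists_int_of_small_zero h
    rw [← hx, phaseInf_int]
  map_add_eq_mul' a b := by
    set p := (exists_rat_int (a + b)).choose with hp
    set q := (exists_rat_int a).choose with hq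
    set r := (exists_rat_int b).choose with hr
    have h : algebraMap K (Adf K) (p - (q + r)) ∈
        smallAdeles (0 : HeightOneSpectrum (𝓞 K) → ℕ) := by
      have := sub_mem (add_mem (exists_rat_int a).choose_spec (exists_rat_int b).choose_spec)
        (exists_rat_int (a + b)).choose_spec
      rw [← hp, ← hq, ← hr] at this
      convert this using 1
      rw [map_sub, map_add]
      abel
    obtain ⟨x, hx⟩ := exists_int_of_small_zero h
    rw [← phaseInf_add, show p = (x : K) + (q + r) by rw [hx]; ring, phaseInf_add, phaseInf_int,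
      one_mul]

theorem adelicChar_apply_of_near {a : Adf K} {b : K}
    (h : a - algebraMap K (Adf K) b ∈ smallAdeles (0 : HeightOneSpectrum (𝓞 K) → ℕ)) :
    adelicChar a = phaseInf b := by
  show phaseInf (exists_rat_int a).choose = phaseInf b
  have h' : algebraMap K (Adf K) ((exists_rat_int a).choose - b) ∈
      smallAdeles (0 : HeightOneSpectrum (𝓞 K) → ℕ) := by
    have := sub_mem h (exists_rat_int a).choose_spec
    convert this using 1
    rw [map_sub]
    abel
  obtain ⟨x, hx⟩ := exists_int_of_small_zero h'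
  rw [show (exists_rat_int a).choose = (x : K) + b by rw [hx]; ring, phaseInf_add, phaseInf_int,
    one_mul]

theorem adelicChar_rat (b : K) : adelicChar (algebraMap K (Adf K) b) = phaseInf b :=
  adelicChar_apply_of_near (by rw [sub_self]; exact zero_mem _)

theorem adelicChar_of_small {a : Adf K}
    (h : a ∈ smallAdeles (0 : HeightOneSpectrum (𝓞 K) → ℕ)) : adelicChar a = 1 := by
  rw [adelicChar_apply_of_near (b := 0) (by simpa using h), phaseInf_zero]

omit [IsTotallyComplex K] in
/-- A fixed nonzero multiplier bounding the dual of the integers. -/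
theorem exists_dual_bound : ∃ m : 𝓞 K, m ≠ 0 ∧ ∀ x : K,
    (∀ o : 𝓞 K, ∃ n : ℤ, Algebra.trace ℚ K (x * (o : K)) = n) → ∃ y : 𝓞 K, (y : K) = x * (m : K) := by
  classical
  let b := integralBasis K
  let b' := (Algebra.traceForm ℚ K).dualBasis (traceForm_nondegenerate ℚ K) b
  obtain ⟨⟨m, hm⟩, h⟩ :=
    IsLocalization.exist_integer_multiples (nonZeroDivisors (𝓞 K)) Finset.univ (fun i => b' i)
  refine ⟨m, nonZeroDivisors.ne_zero hm, fun x hx => ?_⟩
  choose z hz using fun i => h i (Finset.mem_univ i)
  choose n hn using fun i => hx (RingOfIntegers.basis K i)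
  refine ⟨∑ i, n i • z i, ?_⟩
  conv_rhs => rw [← b'.sum_repr x]
  rw [RingOfIntegers.coe_eq_algebraMap, map_sum, Finset.sum_mul]
  refine Finset.sum_congr rfl fun i _ => ?_
  rw [map_zsmul, hz i, LinearMap.BilinForm.dualBasis_repr_apply, Algebra.traceForm_apply,
    integralBasis_apply, hn i]
  simp only [Algebra.smul_def, eq_intCast, map_intCast]
  ring

/-- A local element on whose integral multiples the character is trivial is bounded. -/
theorem exists_char_bound : ∃ d : HeightOneSpectrum (𝓞 K) → ℕ, (∀ᶠ v in cofinite, d v = 0) ∧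
    ∀ (v : HeightOneSpectrum (𝓞 K)) (a : v.adicCompletion K),
      (∀ o : 𝓞 K, adelicChar (updAt v (a * loc v (o : K)) 0) = 1) →
        Valued.v a ≤ exp ((d v : ℤ)) := by
  obtain ⟨m, hm, hdual⟩ := exists_dual_bound (K := K)
  refine ⟨fun v => (ordAt v (Ideal.span {m})).toNat, ?_, fun v a ha => ?_⟩
  · filter_upwards [eventually_ordAt_eq_zero (J := Ideal.span {m}) (by simpa using hm)] with v hv
    simp [hv]
  · obtain ⟨b, hb⟩ := exists_rat_int (updAt v a 0)
    have htr : ∀ o : 𝓞 K, ∃ n : ℤ, Algebra.trace ℚ K (b * (o : K)) = n := by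
      intro o
      have h1 : phaseInf (b * (o : K)) = 1 := by
        rw [← ha o]
        refine (adelicChar_apply_of_near ?_).symm
        intro w
        rw [adele_sub_apply, adele_algebraMap_apply, map_mul]
        have h2 := hb w
        rw [adele_sub_apply, adele_algebraMap_apply] at h2
        have ho : Valued.v (loc w (o : K)) ≤ 1 := by
          rw [valued_loc, HeightOneSpectrum.valuation_of_algebraMap]
          exact w.intValuation_le_one o
        rcases eq_or_ne w v with rfl | hw
        · rw [updAt_self] at h2 ⊢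
          rw [← sub_mul, map_mul]
          simpa using mul_le_mul' h2 ho
        · rw [updAt_of_ne _ _ _ hw] at h2 ⊢
          simp only [Nat.cast_zero, zero_sub, Valuation.map_neg, map_mul] at h2 ⊢
          simpa using mul_le_mul' h2 ho
      rw [phaseInf_eq_exp_trace] at h1
      obtain ⟨n, hn⟩ := Complex.exp_eq_one_iff.mp h1
      refine ⟨n, ?_⟩
      have h3 : ((Algebra.trace ℚ K (b * (o : K)) : ℚ) : ℂ) = (n : ℂ) := by
        have h2 : (2 * π * I : ℂ) ≠ 0 := by simp [Real.pi_ne_zero]
        refine mul_left_cancel₀ h2 ?_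
        rw [hn]
        ring
      exact_mod_cast h3
    obtain ⟨y, hy⟩ := hdual b htr
    have hbv : Valued.v (loc v b) ≤ exp (((ordAt v (Ideal.span {m})).toNat : ℤ)) := by
      have h1 : Valued.v (loc v (y : K)) ≤ 1 := by
        rw [valued_loc, HeightOneSpectrum.valuation_of_algebraMap]
        exact v.intValuation_le_one y
      rw [hy, map_mul, map_mul, valued_int v hm] at h1
      have h2 := mul_le_mul_left h1 (exp (ordAt v (Ideal.span {m})))
      rw [mul_assoc, ← exp_add, neg_add_cancel, exp_zero, mul_one, one_mul] at h2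
      exact h2.trans (exp_le_exp.mpr (Int.self_le_toNat _))
    have h2 := hb v
    rw [adele_sub_apply, adele_algebraMap_apply, updAt_self] at h2
    calc Valued.v a = Valued.v ((a - loc v b) + loc v b) := by rw [sub_add_cancel]
      _ ≤ max (Valued.v (a - loc v b)) (Valued.v (loc v b)) := Valuation.map_add _ _ _
      _ ≤ _ := max_le (h2.trans (exp_le_exp.mpr (by simp))) hbv

end FermatAgent.LT
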