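import Fermat.Agent.LT.MultOne.Uniqueness
import Fermat.Agent.LT.MultOne.Character
import Fermat.Agent.LT.Base.Bessel

set_option autoImplicit false

/-!
# Uniqueness and equivariance of the coefficient function
-/

noncomputable section

open NumberField IsDedekindDomain WithZero Filter
open scoped Real

namespace FermatAgent.LT

variable {K : Type*} [Field K] [NumberField K]

/-- Horizontal translation of the archimedean space. -/
def shiftX (u : InfinitePlace K → ℂ) (x : XInf K) : XInf K :=
  fun w => ⟨(x w).z + u w, (x w).t, (x w).t_pos⟩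

/-- The embeddings of `ν` as a vector. -/
def embVec (ν : K) : InfinitePlace K → ℂ := fun w => w.embedding ν

theorem embVec_injective : Function.Injective (embVec (K := K)) := fun _ _ h =>
  (Classical.arbitrary (InfinitePlace K)).embedding.injective (congrFun h _)

theorem waveProd_shift (ν : K) (u : InfinitePlace K → ℂ) (x : XInf K) :
    waveProd ν (shiftX u x) = waveProd ν x * MultOne.waveChar (embVec ν) u := by
  have key : MultOne.waveChar (embVec ν) u = ∏ w : InfinitePlace K,
      Complex.exp (2 * π * Complex.I * ((2 * (w.embedding ν * u w).re : ℝ) : ℂ)) := by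
    rw [MultOne.waveChar, ← Complex.exp_sum, MultOne.waveDot, Complex.ofReal_sum, Finset.mul_sum]
    congr 1
    refine Finset.sum_congr ?_ fun w _ => rfl
    ext w
    simp
  rw [waveProd, waveProd, key, ← Finset.prod_mul_distrib]
  refine Finset.prod_congr rfl fun w _ => ?_
  simp only [H3.wave, shiftX]
  rw [mul_add (w.embedding ν), Complex.add_re, mul_add (2 : ℝ), Complex.ofReal_add, mul_add,
    Complex.exp_add]
  ring

theorem waveProd_ne_zero {ν : K} (hν : ν ≠ 0) (x : XInf K) : waveProd ν x ≠ 0 := by
  refine Finset.prod_ne_zero_iff.mpr fun w _ => mul_ne_zero ?_ (mul_ne_zero ?_ (Complex.exp_ne_zero _))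
  · simpa using hν
  · rw [Complex.ofReal_ne_zero]
    refine mul_ne_zero (x w).t_pos.ne' (H3.besselK0_pos ?_).ne'
    have hn : 0 < ‖w.embedding ν‖ := norm_pos_iff.mpr (by simpa using hν)
    have ht := (x w).t_pos
    positivity

theorem upperTri_units_one (g : GAf K) : rationalMat (upperTri (1 : Kˣ) 0 1) * g = g := by
  rw [upperTri_one, map_one, one_mul]

/-- An expansion of zero has zero coefficients. -/
theorem HasExpansion.eq_zero {W : GAf K → ℂ}
    (h : HasExpansion (fun _ _ => (0 : ℂ)) W) (g : GAf K) : W g = 0 := by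
  let x₀ : XInf K := fun _ => default
  have h1 := MultOne.coeff_eq_zero (p := fun ν : Kˣ => embVec (ν : K))
    (embVec_injective.comp Units.val_injective)
    (a := fun ν : Kˣ => W (rationalMat (upperTri ν 0 1) * g) * waveProd (ν : K) x₀)
    (fun u => by
      refine (h (shiftX u x₀) g).congr_fun fun ν => ?_
      rw [waveProd_shift]
      ring) 1
  rcases mul_eq_zero.mp h1 with h2 | h2
  · rwa [upperTri_units_one] at h2
  · exact absurd h2 (waveProd_ne_zero (Units.ne_zero _) _)

theorem HasExpansion.sub {φ φ' : XInf K → GAf K → ℂ} {W W' : GAf K → ℂ} (h : HasExpansion φ W)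
    (h' : HasExpansion φ' W') : HasExpansion (fun x g => φ x g - φ' x g) (fun g => W g - W' g) :=
  fun x g => ((h x g).sub (h' x g)).congr_fun fun ν => by ring

theorem HasExpansion.const_mul {φ : XInf K → GAf K → ℂ} {W : GAf K → ℂ} (h : HasExpansion φ W)
    (c : ℂ) : HasExpansion (fun x g => c * φ x g) (fun g => c * W g) :=
  fun x g => ((h x g).mul_left c).congr_fun fun ν => by ring

theorem HasExpansion.comp_mul_right {φ : XInf K → GAf K → ℂ} {W : GAf K → ℂ}
    (h : HasExpansion φ W) (k : GAf K) :
    HasExpansion (fun x g => φ x (g * k)) (fun g => W (g * k)) :=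
  fun x g => (h x (g * k)).congr_fun fun ν => by simp only [mul_assoc]

theorem HasExpansion.add {φ φ' : XInf K → GAf K → ℂ} {W W' : GAf K → ℂ} (h : HasExpansion φ W)
    (h' : HasExpansion φ' W') : HasExpansion (fun x g => φ x g + φ' x g) (fun g => W g + W' g) :=
  fun x g => ((h x g).add (h' x g)).congr_fun fun ν => by ring

theorem HasExpansion.sum {ι : Type*} (s : Finset ι) {φ : ι → XInf K → GAf K → ℂ}
    {W : ι → GAf K → ℂ} (h : ∀ i, HasExpansion (φ i) (W i)) :
    HasExpansion (fun x g => ∑ i ∈ s, φ i x g) (fun g => ∑ i ∈ s, W i g) :=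
  fun x g => (hasSum_sum fun i _ => h i x g).congr_fun fun ν => by rw [Finset.sum_mul]

theorem HasExpansion.unique {φ : XInf K → GAf K → ℂ} {W W' : GAf K → ℂ} (h : HasExpansion φ W)
    (h' : HasExpansion φ W') (g : GAf K) : W g = W' g := by
  have h0 := h.sub h'
  simp only [sub_self] at h0
  exact sub_eq_zero.mp (h0.eq_zero g)

/-- The coefficient function inherits right equivariance. -/
theorem HasExpansion.mul_right {φ : XInf K → GAf K → ℂ} {W : GAf K → ℂ} (h : HasExpansion φ W)
    {k : GAf K} {c : ℂ} (hk : ∀ x g, φ x (g * k) = c * φ x g) (g : GAf K) :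
    W (g * k) = c * W g := by
  have h1 := h.comp_mul_right k
  simp only [hk] at h1
  exact h1.unique (h.const_mul c) g

omit [NumberField K] in
theorem infAct_upperUni (b : K) (x : XInf K) :
    infAct (upperTri 1 b 1) x = shiftX (embVec b) x := by
  refine funext fun w => H3.ext ?_ ?_ <;>
    simp [infAct, shiftX, embVec, H3.smul_def, H3.act, H3.den, upperTri,
      Matrix.GeneralLinearGroup.map_apply, Matrix.det_fin_two]

theorem waveChar_embVec (ν b : K) : MultOne.waveChar (embVec ν) (embVec b) = phaseInf (ν * b) := by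
  rw [MultOne.waveChar, phaseInf, MultOne.waveDot]
  congr 1
  congr 1
  congr 1
  refine Finset.sum_congr ?_ fun w _ => by simp [embVec, map_mul]
  ext w
  simp

theorem coeff_rat_upperUni {φ : XInf K → GAf K → ℂ} {W : GAf K → ℂ} (h : HasExpansion φ W)
    (hrat : ∀ γ x g, φ (infAct γ x) (rationalMat γ * g) = φ x g) (b : K) (g : GAf K) :
    phaseInf b * W (rationalMat (upperTri 1 b 1) * g) = W g := by
  let x₀ : XInf K := fun _ => default
  set g' := rationalMat (upperTri 1 b 1) * g with hg'
  have h1 := MultOne.coeff_eq_zero (p := fun ν : Kˣ => embVec (ν : K))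
    (embVec_injective.comp Units.val_injective)
    (a := fun ν : Kˣ => (phaseInf ((ν : K) * b) * W (rationalMat (upperTri ν 0 1) * g') -
      W (rationalMat (upperTri ν 0 1) * g)) * waveProd (ν : K) x₀)
    (fun u => by
      have h2 := h (shiftX (embVec b) (shiftX u x₀)) g'
      rw [hg', ← infAct_upperUni, hrat] at h2
      have h3 := h2.sub (h (shiftX u x₀) g)
      rw [sub_self] at h3
      refine h3.congr_fun fun ν => ?_
      rw [infAct_upperUni, waveProd_shift, waveProd_shift, waveChar_embVec]
      ring) 1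
  rcases mul_eq_zero.mp h1 with h2 | h2
  · rw [upperTri_units_one, upperTri_units_one, Units.val_one, one_mul, sub_eq_zero] at h2
    exact h2
  · exact absurd h2 (waveProd_ne_zero (Units.ne_zero _) _)

/-- Equivariance of the coefficient function under translations by adeles. -/
theorem coeff_upperUni [IsTotallyComplex K] {φ : XInf K → GAf K → ℂ} {W : GAf K → ℂ}
    {𝔫 : Ideal (𝓞 K)} (h𝔫 : 𝔫 ≠ ⊥) (h : HasExpansion φ W)
    (hrat : ∀ γ x g, φ (infAct γ x) (rationalMat γ * g) = φ x g)
    (hlev : ∀ k ∈ congrSubgroup 𝔫, ∀ x g, φ x (g * k) = φ x g) (a : Adf K) (g : GAf K) :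
    adelicChar a * W (upperTri 1 a 1 * g) = W g := by
  obtain ⟨e, he, he0⟩ := exists_levelExp h𝔫
  obtain ⟨e', he', hconj⟩ := IsNearOne.exists_conj g⁻¹ e he0
  obtain ⟨b, hb⟩ := exists_rat_near a e' he'
  have hk : g⁻¹ * upperTri 1 (a - algebraMap K (Adf K) b) 1 * g⁻¹⁻¹ ∈ congrSubgroup 𝔫 :=
    (hconj _ (isNearOne_upperUni hb)).mem_congrSubgroup he
  have hdec : upperTri 1 a 1 * g = rationalMat (upperTri 1 b 1) * g *
      (g⁻¹ * upperTri 1 (a - algebraMap K (Adf K) b) 1 * g⁻¹⁻¹) := by
    rw [rationalMat_upperTri]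
    have e1 : upperTri 1 a 1 = upperTri 1 (algebraMap K (Adf K) b) 1 *
        upperTri 1 (a - algebraMap K (Adf K) b) 1 := by
      rw [upperTri_mul]
      simp
    rw [e1]
    simp only [map_one]
    group
  have hW := h.mul_right (k := g⁻¹ * upperTri 1 (a - algebraMap K (Adf K) b) 1 * g⁻¹⁻¹) (c := 1)
    (fun x g => by rw [hlev _ hk, one_mul]) (rationalMat (upperTri 1 b 1) * g)
  rw [hdec, hW, one_mul,
    adelicChar_apply_of_near (smallAdeles_anti (fun w => Nat.zero_le (e' w)) hb)]
  exact coeff_rat_upperUni h hrat b g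

end FermatAgent.LT
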