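import Fermat.Agent.LT.MultOne.Approx

set_option autoImplicit false

/-!
# Strong approximation for `SL₂` and the decomposition `GL₂(𝔸_f) = GL₂(K) diag(𝔸_f^×,1) U`
-/

noncomputable section

open NumberField IsDedekindDomain WithZero Filter

namespace FermatAgent.LT

variable {K : Type*} [Field K] [NumberField K]

theorem upperTri_mul {R : Type*} [CommRing R] (a a' d d' : Rˣ) (b b' : R) :
    upperTri a b d * upperTri a' b' d' = upperTri (a * a') ((a : R) * b' + b * (d' : R)) (d * d') := by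
  refine Units.ext (Matrix.ext fun i j => ?_)
  fin_cases i <;> fin_cases j <;> simp [upperTri, Matrix.mul_apply, Fin.sum_univ_two]

theorem upperTri_one {R : Type*} [CommRing R] : upperTri (1 : Rˣ) (0 : R) 1 = 1 := by
  refine Units.ext (Matrix.ext fun i j => ?_)
  fin_cases i <;> fin_cases j <;> simp [upperTri]

theorem upperTri_inv {R : Type*} [CommRing R] (a d : Rˣ) (b : R) :
    (upperTri a b d)⁻¹ = upperTri a⁻¹ (-(((a⁻¹ : Rˣ) : R) * b * ((d⁻¹ : Rˣ) : R))) d⁻¹ := by
  refine Units.ext (Matrix.ext fun i j => ?_)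
  fin_cases i <;> fin_cases j <;> rfl

theorem det_upperTri {R : Type*} [CommRing R] (a d : Rˣ) (b : R) :
    Matrix.GeneralLinearGroup.det (upperTri a b d) = a * d := by
  refine Units.ext ?_
  rw [Matrix.GeneralLinearGroup.val_det_apply, Units.val_mul]
  simp [upperTri, Matrix.det_fin_two]

theorem rationalMat_upperTri (a d : Kˣ) (b : K) :
    rationalMat (upperTri a b d) = upperTri (Units.map (algebraMap K (Adf K)).toMonoidHom a)
      (algebraMap K (Adf K) b) (Units.map (algebraMap K (Adf K)).toMonoidHom d) := by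
  refine Units.ext (Matrix.ext fun i j => ?_)
  fin_cases i <;> fin_cases j <;>
    simp [rationalMat, upperTri, Matrix.GeneralLinearGroup.map_apply]

/-- A lower unipotent element. -/
def lowerUni {R : Type*} [CommRing R] (c : R) : GL (Fin 2) R where
  val := !![1, 0; c, 1]
  inv := !![1, 0; -c, 1]
  val_inv := by ext i j; fin_cases i <;> fin_cases j <;> simp [Matrix.mul_apply, Fin.sum_univ_two]
  inv_val := by ext i j; fin_cases i <;> fin_cases j <;> simp [Matrix.mul_apply, Fin.sum_univ_two]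

theorem lowerUni_inv_mul {R : Type*} [CommRing R] (c c' : R) :
    (lowerUni c)⁻¹ * lowerUni c' = lowerUni (c' - c) := by
  refine Units.ext (Matrix.ext fun i j => ?_)
  fin_cases i <;> fin_cases j <;>
    simp [lowerUni, Matrix.mul_apply, Fin.sum_univ_two, -Matrix.coe_units_inv, Units.inv_mk,
      sub_eq_neg_add]

theorem rationalMat_lowerUni (c : K) :
    rationalMat (lowerUni c) = lowerUni (algebraMap K (Adf K) c) := by
  refine Units.ext (Matrix.ext fun i j => ?_)
  fin_cases i <;> fin_cases j <;>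
    simp [rationalMat, lowerUni, Matrix.GeneralLinearGroup.map_apply]

/-- `k` and `k⁻¹` are congruent to one with exponents `e`. -/
def IsNearOne (e : HeightOneSpectrum (𝓞 K) → ℕ) (k : GAf K) : Prop :=
  (∀ i j, (k i j) - (1 : Matrix (Fin 2) (Fin 2) (Adf K)) i j ∈ smallAdeles e) ∧
    ∀ i j, ((k⁻¹ : GAf K) i j) - (1 : Matrix (Fin 2) (Fin 2) (Adf K)) i j ∈ smallAdeles e

theorem IsNearOne.anti {e e' : HeightOneSpectrum (𝓞 K) → ℕ} {k : GAf K} (h : e ≤ e')
    (hk : IsNearOne e' k) : IsNearOne e k :=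
  ⟨fun i j => smallAdeles_anti h (hk.1 i j), fun i j => smallAdeles_anti h (hk.2 i j)⟩

theorem IsNearOne.mul {e : HeightOneSpectrum (𝓞 K) → ℕ} {k l : GAf K} (hk : IsNearOne e k)
    (hl : IsNearOne e l) : IsNearOne e (k * l) := by
  have key : ∀ A B : Matrix (Fin 2) (Fin 2) (Adf K),
      (∀ i j, (A - 1) i j ∈ smallAdeles e) → (∀ i j, (B - 1) i j ∈ smallAdeles e) →
      ∀ i j, (A * B - 1) i j ∈ smallAdeles e := by
    intro A B hA hB i j
    have h : A * B - 1 = (A - 1) * (B - 1) + (A - 1) + (B - 1) := by noncomm_ring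
    rw [h, Matrix.add_apply, Matrix.add_apply]
    refine add_mem (add_mem ?_ (hA i j)) (hB i j)
    rw [Matrix.mul_apply]
    exact sum_mem fun x _ => mul_mem_smallAdeles (hA i x)
      (smallAdeles_anti (fun w => Nat.zero_le (e w)) (hB x j))
  refine ⟨fun i j => ?_, fun i j => ?_⟩
  · simpa [Matrix.sub_apply] using key _ _ (fun a b => by simpa [Matrix.sub_apply] using hk.1 a b)
      (fun a b => by simpa [Matrix.sub_apply] using hl.1 a b) i j
  · rw [mul_inv_rev]
    simpa [Matrix.sub_apply, -Matrix.coe_units_inv] using key _ _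
      (fun a b => by simpa [Matrix.sub_apply, -Matrix.coe_units_inv] using hl.2 a b)
      (fun a b => by simpa [Matrix.sub_apply, -Matrix.coe_units_inv] using hk.2 a b) i j

theorem IsNearOne.mem_congrSubgroup {𝔫 : Ideal (𝓞 K)} {e : HeightOneSpectrum (𝓞 K) → ℕ}
    (he : IsLevelExp 𝔫 e) {k : GAf K} (hk : IsNearOne e k) : k ∈ congrSubgroup 𝔫 :=
  mem_congrSubgroup_of_small he hk.1 hk.2

theorem IsNearOne.exists_conj (g : GAf K) (e : HeightOneSpectrum (𝓞 K) → ℕ)
    (he : ∀ᶠ v in cofinite, e v = 0) :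
    ∃ e' : HeightOneSpectrum (𝓞 K) → ℕ, (∀ᶠ v in cofinite, e' v = 0) ∧
      ∀ k, IsNearOne e' k → IsNearOne e (g * k * g⁻¹) := by
  obtain ⟨e', he', h⟩ := exists_conj_small g e he
  refine ⟨e', he', fun k hk => ?_⟩
  have key : ∀ A : Matrix (Fin 2) (Fin 2) (Adf K), (∀ i j, (A - 1) i j ∈ smallAdeles e') →
      ∀ i j, ((g : Matrix (Fin 2) (Fin 2) (Adf K)) * A *
        ((g⁻¹ : GAf K) : Matrix (Fin 2) (Fin 2) (Adf K)) - 1) i j ∈ smallAdeles e := by
    intro A hA i j
    have h1 : (g : Matrix (Fin 2) (Fin 2) (Adf K)) * A *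
        ((g⁻¹ : GAf K) : Matrix (Fin 2) (Fin 2) (Adf K)) - 1 =
        (g : Matrix (Fin 2) (Fin 2) (Adf K)) * (A - 1) *
          ((g⁻¹ : GAf K) : Matrix (Fin 2) (Fin 2) (Adf K)) := by
      rw [mul_sub, sub_mul, mul_one, ← Units.val_mul g g⁻¹, mul_inv_cancel, Units.val_one]
    rw [h1]
    exact h _ hA i j
  refine ⟨fun i j => ?_, fun i j => ?_⟩
  · simpa [Matrix.sub_apply, -Matrix.coe_units_inv] using
      key _ (fun a b => by simpa [Matrix.sub_apply] using hk.1 a b) i j
  · rw [mul_inv_rev, mul_inv_rev, inv_inv, ← mul_assoc]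
    simpa [Matrix.sub_apply, -Matrix.coe_units_inv] using
      key _ (fun a b => by simpa [Matrix.sub_apply, -Matrix.coe_units_inv] using hk.2 a b) i j

/-- Elements in the closure of the rational matrices. -/
def rationalClosure : Set (GAf K) :=
  {s | ∀ e : HeightOneSpectrum (𝓞 K) → ℕ, (∀ᶠ v in cofinite, e v = 0) →
    ∃ γ : GL (Fin 2) K, IsNearOne e ((rationalMat γ)⁻¹ * s)}

theorem mul_mem_rationalClosure {s t : GAf K} (hs : s ∈ rationalClosure)
    (ht : t ∈ rationalClosure) : s * t ∈ rationalClosure := by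
  intro e he
  obtain ⟨e', he', hconj⟩ := IsNearOne.exists_conj t⁻¹ e he
  obtain ⟨γ, hγ⟩ := hs e' he'
  obtain ⟨δ, hδ⟩ := ht e he
  refine ⟨γ * δ, ?_⟩
  have : (rationalMat (γ * δ))⁻¹ * (s * t) =
      (rationalMat δ)⁻¹ * t * (t⁻¹ * ((rationalMat γ)⁻¹ * s) * t⁻¹⁻¹) := by
    rw [map_mul]
    group
  rw [this]
  exact hδ.mul (hconj _ hγ)

theorem isNearOne_upperUni {e : HeightOneSpectrum (𝓞 K) → ℕ} {x : Adf K}
    (hx : x ∈ smallAdeles e) : IsNearOne e (upperTri 1 x 1) := by
  refine ⟨fun i j => ?_, fun i j => ?_⟩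
  · fin_cases i <;> fin_cases j <;> simp [upperTri, hx]
  · rw [upperTri_inv]
    fin_cases i <;> fin_cases j <;> simp [upperTri, hx]

theorem isNearOne_lowerUni {e : HeightOneSpectrum (𝓞 K) → ℕ} {x : Adf K}
    (hx : x ∈ smallAdeles e) : IsNearOne e (lowerUni x) := by
  refine ⟨fun i j => ?_, fun i j => ?_⟩
  · fin_cases i <;> fin_cases j <;> simp [lowerUni, hx]
  · fin_cases i <;> fin_cases j <;> simp [lowerUni, hx, -Matrix.coe_units_inv, Units.inv_mk]

theorem exists_rat_near (x : Adf K) (e : HeightOneSpectrum (𝓞 K) → ℕ)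
    (he : ∀ᶠ v in cofinite, e v = 0) : ∃ b : K, x - algebraMap K (Adf K) b ∈ smallAdeles e := by
  obtain ⟨b, hb⟩ := exists_sub_small x e he
  exact ⟨b, fun v => by rw [adele_sub_apply, adele_algebraMap_apply]; exact hb v⟩

theorem upperUni_mem_rationalClosure (x : Adf K) : upperTri 1 x 1 ∈ rationalClosure := by
  intro e he
  obtain ⟨b, hb⟩ := exists_rat_near x e he
  refine ⟨upperTri 1 b 1, ?_⟩
  rw [rationalMat_upperTri, upperTri_inv, upperTri_mul]
  simpa [← sub_eq_add_neg] using isNearOne_upperUni hb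

theorem lowerUni_mem_rationalClosure (x : Adf K) : lowerUni x ∈ rationalClosure := by
  intro e he
  obtain ⟨b, hb⟩ := exists_rat_near x e he
  refine ⟨lowerUni b, ?_⟩
  rw [rationalMat_lowerUni, lowerUni_inv_mul]
  exact isNearOne_lowerUni hb

theorem exists_unit_shift (a c : Adf K) (h : ∃ b d : Adf K, a * d - b * c = 1) :
    ∃ y : Adf K, IsUnit (c + y * a) := by
  classical
  obtain ⟨b, d, hdet⟩ := h
  let f : ∀ v : HeightOneSpectrum (𝓞 K), v.adicCompletion K := fun v =>
    if Valued.v (c v) ≤ Valued.v (c v + a v) then 1 else 0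
  have hf : ∀ v, f v ∈ v.adicCompletionIntegers K := fun v => by
    simp only [f]
    split_ifs
    exacts [one_mem _, zero_mem _]
  let y : Adf K := ⟨f, Filter.Eventually.of_forall hf⟩
  have hy : ∀ v, Valued.v ((c + y * a) v) = max (Valued.v (c v)) (Valued.v (c v + a v)) := by
    intro v
    rw [adele_add_apply, adele_mul_apply, show y v = f v from rfl]
    simp only [f]
    split_ifs with h1
    · rw [one_mul, max_eq_right h1]
    · rw [zero_mul, add_zero, max_eq_left (le_of_not_ge h1)]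
  have hv : ∀ v, a v * d v - b v * c v = 1 := fun v => by
    have := congrArg (fun z : Adf K => z v) hdet
    simpa [adele_sub_apply, adele_mul_apply, adele_one_apply] using this
  refine ⟨y, FiniteAdeleRing.isUnit_iff.mpr ⟨fun v h0 => ?_, ?_⟩⟩
  · have h1 := hy v
    rw [h0, map_zero, eq_comm, ← bot_eq_zero, max_eq_bot, bot_eq_zero, map_eq_zero,
      map_eq_zero] at h1
    obtain ⟨hc0, hca⟩ := h1
    rw [hc0, zero_add] at hca
    have := hv v
    simp [hc0, hca] at this
  · filter_upwards [a.2, b.2, c.2, d.2] with v ha hb hc hd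
    have hle : ∀ {z : v.adicCompletion K}, z ∈ v.adicCompletionIntegers K → Valued.v z ≤ 1 :=
      fun hz => hz
    refine (hy v).trans (le_antisymm (max_le (hle hc) (hle (add_mem hc ha))) ?_)
    by_contra hlt
    rw [not_le, max_lt_iff] at hlt
    have hav : Valued.v (a v) < 1 := by
      have := Valuation.map_sub_lt _ hlt.2 hlt.1
      simpa using this
    have h1 : Valued.v (a v * d v - b v * c v) < 1 := by
      refine Valuation.map_sub_lt _ ?_ ?_
      · rw [map_mul]
        exact mul_lt_one_of_nonneg_of_lt_one_left zero_le hav (hle hd)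
      · rw [map_mul]
        exact mul_lt_one_of_nonneg_of_lt_one_right (hle hb) zero_le hlt.1
    rw [hv v, map_one] at h1
    exact lt_irrefl _ h1

theorem mem_rationalClosure_of_det (s : GAf K) (hs : Matrix.GeneralLinearGroup.det s = 1) :
    s ∈ rationalClosure := by
  have hdet : s 0 0 * s 1 1 - s 0 1 * s 1 0 = 1 := by
    rw [← Matrix.det_fin_two, ← Matrix.GeneralLinearGroup.val_det_apply, hs, Units.val_one]
  obtain ⟨y, hy⟩ := exists_unit_shift (s 0 0) (s 1 0) ⟨s 0 1, s 1 1, hdet⟩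
  obtain ⟨u, hu⟩ := hy
  set a := s 0 0
  set d' := s 1 1 + y * s 0 1
  have key : s = lowerUni (-y) * upperTri 1 ((a - 1) * ((u⁻¹ : (Adf K)ˣ) : Adf K)) 1 *
      lowerUni (u : Adf K) * upperTri 1 ((d' - 1) * ((u⁻¹ : (Adf K)ˣ) : Adf K)) 1 := by
    have hc : (u : Adf K) * ((u⁻¹ : (Adf K)ˣ) : Adf K) = 1 := Units.mul_inv u
    refine Units.ext (Matrix.ext fun i j => ?_)
    fin_cases i <;> fin_cases j <;>
      simp [lowerUni, upperTri, Matrix.mul_apply, Fin.sum_univ_two, a, d']
    · linear_combination -(s 0 1) * hc + ((u⁻¹ : (Adf K)ˣ) : Adf K) * s 0 1 * hu -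
        ((u⁻¹ : (Adf K)ˣ) : Adf K) * hdet
    · linear_combination y * (s 0 0 - 1) * hc - hu
    · linear_combination (y * (s 0 0 - 1) * ((s 1 1 + y * s 0 1 - 1) * ((u⁻¹ : (Adf K)ˣ) : Adf K)) +
          (1 - (s 1 1 + y * s 0 1)) + y * s 0 1) * hc -
        y * ((u⁻¹ : (Adf K)ˣ) : Adf K) * s 0 1 * hu + y * ((u⁻¹ : (Adf K)ˣ) : Adf K) * hdet
  rw [key]
  exact mul_mem_rationalClosure (mul_mem_rationalClosure (mul_mem_rationalClosure
    (lowerUni_mem_rationalClosure _) (upperUni_mem_rationalClosure _))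
    (lowerUni_mem_rationalClosure _)) (upperUni_mem_rationalClosure _)

/-- Every element is a rational matrix times `diag (a, 1)` times the congruence subgroup. -/
theorem exists_rational_diag_congr {𝔫 : Ideal (𝓞 K)} (h : 𝔫 ≠ ⊥) (g : GAf K) :
    ∃ (γ : GL (Fin 2) K) (a : (Adf K)ˣ) (u : GAf K),
      u ∈ congrSubgroup 𝔫 ∧ g = rationalMat γ * upperTri a 0 1 * u := by
  obtain ⟨e, he, he0⟩ := exists_levelExp h
  set D := upperTri (Matrix.GeneralLinearGroup.det g) (0 : Adf K) 1 with hD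
  obtain ⟨e', he', hconj⟩ := IsNearOne.exists_conj D⁻¹ e he0
  have hs : Matrix.GeneralLinearGroup.det (g * D⁻¹) = 1 := by
    rw [map_mul, map_inv, hD, det_upperTri, mul_one, mul_inv_cancel]
  obtain ⟨γ, hγ⟩ := mem_rationalClosure_of_det _ hs e' he'
  refine ⟨γ, Matrix.GeneralLinearGroup.det g, D⁻¹ * ((rationalMat γ)⁻¹ * (g * D⁻¹)) * D⁻¹⁻¹,
    (hconj _ hγ).mem_congrSubgroup he, ?_⟩
  rw [← hD]
  group

end FermatAgent.LT
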