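import Fermat.Agent.LT.MultOne.Whittaker

set_option autoImplicit false

/-!
# Multiplicity one from eigenvalues and translation characters
-/

noncomputable section

open NumberField IsDedekindDomain WithZero Filter

namespace FermatAgent.LT

variable {K : Type*} [Field K] [NumberField K]

theorem updAt_mem_smallAdeles {v : HeightOneSpectrum (𝓞 K)} {e : HeightOneSpectrum (𝓞 K) → ℕ}
    {c : v.adicCompletion K} (hc : Valued.v c ≤ exp (-(e v : ℤ))) : updAt v c 0 ∈ smallAdeles e :=
  fun w => by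
    rcases eq_or_ne w v with rfl | hw
    · rw [updAt_self]; exact hc
    · rw [updAt_of_ne _ _ _ hw, Nat.cast_zero, map_zero]; exact zero_le

theorem updAt_sub (v : HeightOneSpectrum (𝓞 K)) (a b : v.adicCompletion K) :
    updAt v (a - b) 0 = updAt v a 0 - updAt v b 0 := by
  refine FiniteAdeleRing.ext _ fun w => ?_
  rw [adele_sub_apply]
  rcases eq_or_ne w v with rfl | hw
  · rw [updAt_self, updAt_self, updAt_self]
  · rw [updAt_of_ne _ _ _ hw, updAt_of_ne _ _ _ hw, updAt_of_ne _ _ _ hw]; simp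

/-- The idele with component `c` at `v`. -/
def ideleAt (v : HeightOneSpectrum (𝓞 K)) (c : (v.adicCompletion K)ˣ) : (Adf K)ˣ where
  val := updAt v (c : v.adicCompletion K) 1
  inv := updAt v ((c⁻¹ : (v.adicCompletion K)ˣ) : v.adicCompletion K) 1
  val_inv := by
    refine FiniteAdeleRing.ext _ fun w => ?_
    rw [adele_mul_apply, adele_one_apply]
    rcases eq_or_ne w v with rfl | hw
    · rw [updAt_self, updAt_self, Units.mul_inv]
    · rw [updAt_of_ne _ _ _ hw, updAt_of_ne _ _ _ hw]; simp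
  inv_val := by
    refine FiniteAdeleRing.ext _ fun w => ?_
    rw [adele_mul_apply, adele_one_apply]
    rcases eq_or_ne w v with rfl | hw
    · rw [updAt_self, updAt_self, Units.inv_mul]
    · rw [updAt_of_ne _ _ _ hw, updAt_of_ne _ _ _ hw]; simp

theorem ideleAt_self (v : HeightOneSpectrum (𝓞 K)) (c : (v.adicCompletion K)ˣ) :
    (ideleAt v c : Adf K) v = c := updAt_self _ _ _

theorem ideleAt_of_ne {v w : HeightOneSpectrum (𝓞 K)} (c : (v.adicCompletion K)ˣ) (h : w ≠ v) :
    (ideleAt v c : Adf K) w = 1 := (updAt_of_ne _ _ _ h).trans Nat.cast_one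

theorem atPlace_upperTri (v : HeightOneSpectrum (𝓞 K)) (a d : (v.adicCompletion K)ˣ)
    (b : v.adicCompletion K) :
    atPlace v (upperTri a b d) = upperTri (ideleAt v a) (updAt v b 0) (ideleAt v d) := by
  refine Units.ext (Matrix.ext fun i j => FiniteAdeleRing.ext _ fun w => ?_)
  show updAt v ((upperTri a b d : Matrix (Fin 2) (Fin 2) _) i j) (if i = j then 1 else 0) w = _
  rcases eq_or_ne w v with rfl | hw
  · rw [updAt_self]
    fin_cases i <;> fin_cases j <;>
      simp [upperTri, updAt_self, ideleAt_self, adele_zero_apply]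
  · rw [updAt_of_ne _ _ _ hw]
    fin_cases i <;> fin_cases j <;>
      simp [upperTri, updAt_of_ne _ _ _ hw, ideleAt_of_ne _ hw, adele_zero_apply]

theorem ideleAt_one (v : HeightOneSpectrum (𝓞 K)) : ideleAt v 1 = 1 :=
  Units.ext (FiniteAdeleRing.ext _ fun w => by
    rcases eq_or_ne w v with rfl | hw
    · rw [ideleAt_self]; rfl
    · rw [ideleAt_of_ne _ hw]; rfl)

/-- `ideleAt` as a homomorphism. -/
def ideleAtHom (v : HeightOneSpectrum (𝓞 K)) : (v.adicCompletion K)ˣ →* (Adf K)ˣ where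
  toFun := ideleAt v
  map_one' := ideleAt_one v
  map_mul' a b := Units.ext (FiniteAdeleRing.ext _ fun w => by
    rw [Units.val_mul, adele_mul_apply]
    rcases eq_or_ne w v with rfl | hw
    · rw [ideleAt_self, ideleAt_self, ideleAt_self]; rfl
    · rw [ideleAt_of_ne _ hw, ideleAt_of_ne _ hw, ideleAt_of_ne _ hw, one_mul])

/-- Forms of level `𝔫`, eigen off `S`, with translation characters `ψ` on `S`. -/
structure CoeffData (𝔫 : Ideal (𝓞 K)) (S : Set (HeightOneSpectrum (𝓞 K)))
    (ψ : HeightOneSpectrum (𝓞 K) → 𝓞 K → ℂ) (l : HeightOneSpectrum (𝓞 K) → ℂ)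
    (φ : XInf K → GAf K → ℂ) (W : GAf K → ℂ) : Prop where
  rational : ∀ γ x g, φ (infAct γ x) (rationalMat γ * g) = φ x g
  central : ∀ (a : (Adf K)ˣ) x g, φ x (g * upperTri a 0 a) = φ x g
  level : ∀ k ∈ congrSubgroup 𝔫, ∀ x g, φ x (g * k) = φ x g
  expansion : HasExpansion φ W
  psi : ∀ v ∈ S, ∀ x g o, φ x (g * transl v o) = ψ v o * φ x g
  eigen : ∀ v ∉ S, IsEigenAt v φ (l v)

/-- The value at `diag (a, 1)`. -/
def diagW (W : GAf K → ℂ) (a : (Adf K)ˣ) : ℂ := W (upperTri a 0 1)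

/-- The character kills the integral multiples of the component at `v`. -/
def CharTrivAt [IsTotallyComplex K] (v : HeightOneSpectrum (𝓞 K)) (c : v.adicCompletion K) : Prop :=
  ∀ o : 𝓞 K, adelicChar (updAt v (c * loc v (o : K)) 0) = 1

theorem charTrivAt_of_le [IsTotallyComplex K] {v : HeightOneSpectrum (𝓞 K)}
    {c c' : v.adicCompletion K} (h : Valued.v c' ≤ Valued.v c) (hc : CharTrivAt v c) :
    CharTrivAt v c' := by
  intro o
  rcases eq_or_ne c 0 with rfl | hc0
  · rw [map_zero, nonpos_iff_eq_zero, map_eq_zero] at h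
    rw [h, zero_mul]
    exact adelicChar_of_small (updAt_mem_smallAdeles (by simp))
  set r := c' / c * loc v (o : K) with hr
  have hr1 : Valued.v r ≤ 1 := by
    rw [hr, map_mul, map_div₀]
    refine mul_le_one' (div_le_one_of_le₀ h zero_le) ?_
    rw [valued_loc, HeightOneSpectrum.valuation_of_algebraMap]
    exact v.intValuation_le_one o
  obtain ⟨o', ho'⟩ := exists_int_close v hr1 (log (Valued.v c)).toNat
  have key : c' * loc v (o : K) = c * (r - loc v (o' : K)) + c * loc v (o' : K) := by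
    rw [hr]
    field_simp
    ring
  have hsplit : updAt v (c' * loc v (o : K)) 0 =
      updAt v (c * (r - loc v (o' : K))) 0 + updAt v (c * loc v (o' : K)) 0 := by
    rw [← sub_eq_iff_eq_add, ← updAt_sub]
    congr 1
    rw [key]
    ring
  rw [hsplit, AddChar.map_add_eq_mul, hc o', mul_one]
  refine adelicChar_of_small (updAt_mem_smallAdeles ?_)
  rw [map_mul]
  have hv0 : Valued.v c ≠ 0 := (Valuation.ne_zero_iff _).mpr hc0
  refine (mul_le_mul' (le_of_eq (exp_log hv0).symm) ho').trans ?_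
  rw [← exp_add, exp_le_exp]
  simp only [Pi.zero_apply, Nat.cast_zero, neg_zero]
  omega

variable {𝔫 : Ideal (𝓞 K)} {S : Set (HeightOneSpectrum (𝓞 K))}
  {ψ : HeightOneSpectrum (𝓞 K) → 𝓞 K → ℂ} {l : HeightOneSpectrum (𝓞 K) → ℂ}
  {φ φ' : XInf K → GAf K → ℂ} {W W' : GAf K → ℂ}

theorem CoeffData.sub_mul (h : CoeffData 𝔫 S ψ l φ W) (h' : CoeffData 𝔫 S ψ l φ' W') (c : ℂ) :
    CoeffData 𝔫 S ψ l (fun x g => φ' x g - c * φ x g) (fun g => W' g - c * W g) where
  rational γ x g := by simp only [h.rational, h'.rational]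
  central a x g := by simp only [h.central, h'.central]
  level k hk x g := by simp only [h.level k hk, h'.level k hk]
  expansion := h'.expansion.sub (h.expansion.const_mul c)
  psi v hv x g o := by simp only [h.psi v hv, h'.psi v hv]; ring
  eigen v hv x g := by
    have e1 := h.eigen v hv x g
    have e2 := h'.eigen v hv x g
    simp only [heckeT] at e1 e2 ⊢
    have : Finite (𝓞 K ⧸ v.asIdeal) := Ideal.finiteQuotientOfFreeOfNeBot _ v.ne_bot
    have := Fintype.ofFinite (𝓞 K ⧸ v.asIdeal)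
    simp only [finsum_eq_sum_of_fintype] at e1 e2 ⊢
    rw [Finset.sum_sub_distrib, ← Finset.mul_sum]
    linear_combination e2 - c * e1

theorem CoeffData.mul_congr (h : CoeffData 𝔫 S ψ l φ W) {k : GAf K} (hk : k ∈ congrSubgroup 𝔫)
    (g : GAf K) : W (g * k) = W g := by
  rw [h.expansion.mul_right (c := 1) (fun x g => by rw [h.level k hk, one_mul]) g, one_mul]

theorem upperTri_mul_transl (v : HeightOneSpectrum (𝓞 K)) (a : (Adf K)ˣ) (o : 𝓞 K) :
    upperTri a 0 1 * transl v o =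
      upperTri 1 (updAt v ((a : Adf K) v * loc v (o : K)) 0) 1 * upperTri a 0 1 := by
  rw [transl, atPlace_upperTri, ideleAt_one, upperTri_mul, upperTri_mul]
  simp only [Units.val_one, mul_one, one_mul, mul_zero, zero_add, add_zero]
  congr 1
  refine FiniteAdeleRing.ext _ fun w => ?_
  rw [adele_mul_apply]
  rcases eq_or_ne w v with rfl | hw
  · rw [updAt_self, updAt_self]
  · rw [updAt_of_ne _ _ _ hw, updAt_of_ne _ _ _ hw]; simp

theorem CoeffData.eq_zero (h : CoeffData 𝔫 S ψ l φ W) (h𝔫 : 𝔫 ≠ ⊥)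
    (hW : ∀ a, diagW W a = 0) : φ = 0 := by
  refine funext fun x => funext fun g => ?_
  obtain ⟨γ, a, u, hu, rfl⟩ := exists_rational_diag_congr h𝔫 g
  rw [h.level u hu]
  have : φ x (rationalMat γ * upperTri a 0 1) = φ (infAct γ⁻¹ x) (upperTri a 0 1) := by
    conv_rhs => rw [← h.rational γ]
    congr 1
    exact funext fun w => by simp [infAct, map_inv]
  rw [this]
  refine (h.expansion _ _).unique ?_
  have hz : ∀ ν : Kˣ, W (rationalMat (upperTri ν 0 1) * upperTri a 0 1) = 0 := fun ν => by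
    rw [rationalMat_upperTri, upperTri_mul]
    simpa [diagW] using hW (Units.map (algebraMap K (Adf K)).toMonoidHom ν * a)
  simp [hz]

variable [IsTotallyComplex K]

theorem CoeffData.diagW_transl (h : CoeffData 𝔫 S ψ l φ W) (h𝔫 : 𝔫 ≠ ⊥)
    (v : HeightOneSpectrum (𝓞 K)) (a : (Adf K)ˣ) (o : 𝓞 K) :
    adelicChar (updAt v ((a : Adf K) v * loc v (o : K)) 0) *
      W (upperTri a 0 1 * transl v o) = diagW W a := by
  rw [upperTri_mul_transl]
  exact coeff_upperUni h𝔫 h.expansion h.rational h.level _ _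

theorem CoeffData.charTrivAt (h : CoeffData 𝔫 S ψ l φ W) (h𝔫 : 𝔫 ≠ ⊥)
    {e : HeightOneSpectrum (𝓞 K) → ℕ} (he : IsLevelExp 𝔫 e) {v : HeightOneSpectrum (𝓞 K)}
    (hev : e v = 0) {a : (Adf K)ˣ} (ha : diagW W a ≠ 0) : CharTrivAt v ((a : Adf K) v) := by
  intro o
  have hk : transl v o ∈ congrSubgroup 𝔫 := by
    rw [transl, atPlace_upperTri, ideleAt_one]
    refine (isNearOne_upperUni (updAt_mem_smallAdeles ?_)).mem_congrSubgroup he
    rw [hev, valued_loc, HeightOneSpectrum.valuation_of_algebraMap]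
    simpa using v.intValuation_le_one o
  have h1 := h.diagW_transl h𝔫 v a o
  rw [h.mul_congr hk] at h1
  exact mul_right_cancel₀ ha (h1.trans (one_mul _).symm)

theorem CoeffData.charAt_psi (h : CoeffData 𝔫 S ψ l φ W) (h𝔫 : 𝔫 ≠ ⊥)
    {v : HeightOneSpectrum (𝓞 K)} (hv : v ∈ S) {a : (Adf K)ˣ} (ha : diagW W a ≠ 0) (o : 𝓞 K) :
    adelicChar (updAt v ((a : Adf K) v * loc v (o : K)) 0) * ψ v o = 1 := by
  have h1 := h.diagW_transl h𝔫 v a o
  rw [h.expansion.mul_right (c := ψ v o) (fun x g => h.psi v hv x g o)] at h1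
  refine mul_right_cancel₀ ha ?_
  rw [one_mul]
  rw [mul_assoc]
  exact h1

theorem CoeffData.valued_sub_lt (h : CoeffData 𝔫 S ψ l φ W) (h' : CoeffData 𝔫 S ψ l φ' W')
    (h𝔫 : 𝔫 ≠ ⊥) {v : HeightOneSpectrum (𝓞 K)} (hv : v ∈ S) (hψ : ∃ o, ψ v o ≠ 1)
    {a a' : (Adf K)ˣ} (ha : diagW W a ≠ 0) (ha' : diagW W' a' ≠ 0) :
    Valued.v ((a' : Adf K) v - (a : Adf K) v) < Valued.v ((a : Adf K) v) := by
  by_contra hlt
  rw [not_lt] at hlt
  have hδ : CharTrivAt v ((a' : Adf K) v - (a : Adf K) v) := by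
    intro o
    have h1 := h.charAt_psi h𝔫 hv ha o
    have h2 := h'.charAt_psi h𝔫 hv ha' o
    rw [_root_.sub_mul, updAt_sub, AddChar.map_sub_eq_div]
    have hne : ψ v o ≠ 0 := fun h0 => by rw [h0, mul_zero] at h1; exact zero_ne_one h1
    rw [mul_right_cancel₀ hne (h2.trans h1.symm), div_self]
    intro h0
    rw [h0, zero_mul] at h1
    exact zero_ne_one h1
  obtain ⟨o, ho⟩ := hψ
  have h3 := charTrivAt_of_le hlt hδ o
  have h4 := h.charAt_psi h𝔫 hv ha o
  rw [h3, one_mul] at h4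
  exact ho h4

theorem CoeffData.hecke (h : CoeffData 𝔫 S ψ l φ W) (h𝔫 : 𝔫 ≠ ⊥) {v : HeightOneSpectrum (𝓞 K)}
    (hv : v ∉ S) {a : (Adf K)ˣ} (ha : CharTrivAt v ((a : Adf K) v)) :
    (Nat.card (𝓞 K ⧸ v.asIdeal) : ℂ) * diagW W (a * ideleAt v (piLoc v)) +
        diagW W (a * (ideleAt v (piLoc v))⁻¹) =
      (Real.sqrt (Ideal.absNorm v.asIdeal) : ℂ) * l v * diagW W a := by
  have : Finite (𝓞 K ⧸ v.asIdeal) := Ideal.finiteQuotientOfFreeOfNeBot _ v.ne_bot
  let _ := Fintype.ofFinite (𝓞 K ⧸ v.asIdeal)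
  set β : (𝓞 K ⧸ v.asIdeal) → GAf K := fun b => atPlace v (upperTri (piLoc v)
    (algebraMap K (v.adicCompletion K)
      ((Function.surjInv (Ideal.Quotient.mk_surjective (I := v.asIdeal)) b : 𝓞 K) : K)) 1) with hβ
  set γ : GAf K := atPlace v (upperTri 1 0 (piLoc v)) with hγ
  have hT := (HasExpansion.sum Finset.univ (fun b => h.expansion.comp_mul_right (β b))).add
    (h.expansion.comp_mul_right γ)
  have hT' : HasExpansion (fun x g => (∑ b, φ x (g * β b)) + φ x (g * γ))
      (fun g => (Real.sqrt (Ideal.absNorm v.asIdeal) : ℂ) * l v * W g) := by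
    refine fun x g => ?_
    have h1 := h.eigen v hv x g
    rw [heckeT, finsum_eq_sum_of_fintype] at h1
    change HasSum _ ((∑ b, φ x (g * β b)) + φ x (g * γ))
    rw [h1]
    exact (h.expansion.const_mul _) x g
  have key : (∑ b, W (upperTri a 0 1 * β b)) + W (upperTri a 0 1 * γ) =
      (Real.sqrt (Ideal.absNorm v.asIdeal) : ℂ) * l v * diagW W a := hT.unique hT' _
  have hterm : ∀ b, W (upperTri a 0 1 * β b) = diagW W (a * ideleAt v (piLoc v)) := by
    intro b
    set o : 𝓞 K := Function.surjInv (Ideal.Quotient.mk_surjective (I := v.asIdeal)) b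
    have hd : upperTri a 0 1 * β b =
        upperTri 1 (updAt v ((a : Adf K) v * loc v (o : K)) 0) 1 *
          upperTri (a * ideleAt v (piLoc v)) 0 1 := by
      simp only [hβ, atPlace_upperTri, ideleAt_one, upperTri_mul]
      simp only [mul_one, one_mul, Units.val_one, mul_zero, zero_add, add_zero]
      congr 1
      refine FiniteAdeleRing.ext _ fun w => ?_
      rw [adele_mul_apply]
      rcases eq_or_ne w v with rfl | hw
      · rw [updAt_self, updAt_self]
      · rw [updAt_of_ne _ _ _ hw, updAt_of_ne _ _ _ hw]; simp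
    have h1 := coeff_upperUni h𝔫 h.expansion h.rational h.level
      (updAt v ((a : Adf K) v * loc v (o : K)) 0) (upperTri (a * ideleAt v (piLoc v)) 0 1)
    rw [← hd, ha o, one_mul] at h1
    exact h1
  have hlast : W (upperTri a 0 1 * γ) = diagW W (a * (ideleAt v (piLoc v))⁻¹) := by
    have hu : updAt v (0 : v.adicCompletion K) 0 = 0 := by
      refine FiniteAdeleRing.ext _ fun w => ?_
      rcases eq_or_ne w v with rfl | hw
      · rw [updAt_self]; rfl
      · rw [updAt_of_ne _ _ _ hw]; simp [adele_zero_apply]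
    have hd : upperTri a 0 1 * γ = upperTri (a * (ideleAt v (piLoc v))⁻¹) 0 1 *
        upperTri (ideleAt v (piLoc v)) 0 (ideleAt v (piLoc v)) := by
      simp only [hγ, atPlace_upperTri, ideleAt_one, upperTri_mul, hu]
      simp
    rw [hd, h.expansion.mul_right (c := 1) (fun x g => by rw [h.central, one_mul]), one_mul]
    rfl
  simp only [hterm, hlast, Finset.sum_const, Finset.card_univ, nsmul_eq_mul] at key
  rwa [Nat.card_eq_fintype_card]

/-- Multiplicity one. -/
theorem CoeffData.exists_smul (h : CoeffData 𝔫 S ψ l φ W) (h' : CoeffData 𝔫 S ψ l φ' W')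
    (h𝔫 : 𝔫 ≠ ⊥) {e : HeightOneSpectrum (𝓞 K) → ℕ} (he : IsLevelExp 𝔫 e)
    (heS : ∀ v ∉ S, e v = 0) (heS' : ∀ v ∈ S, e v ≤ 1) (hψ : ∀ v ∈ S, ∃ o, ψ v o ≠ 1)
    (hφ : φ ≠ 0) : ∃ c : ℂ, φ' = c • φ := by
  classical
  obtain ⟨d, hd0, hd⟩ := exists_char_bound (K := K)
  have hmin : ∀ {f : XInf K → GAf K → ℂ} {V : GAf K → ℂ}, CoeffData 𝔫 S ψ l f V → f ≠ 0 →
      ∃ a, diagW V a ≠ 0 ∧ ∀ v ∉ S, ¬ CharTrivAt v
        (((a * (ideleAt v (piLoc v))⁻¹ : (Adf K)ˣ) : Adf K) v) := by
    intro f V hf hne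
    let ord : (Adf K)ˣ → HeightOneSpectrum (𝓞 K) → ℕ := fun a v =>
      if v ∈ S then 0 else ((d v : ℤ) - log (Valued.v ((a : Adf K) v))).toNat
    have hsupp : ∀ a, (Function.support (ord a)).Finite := by
      intro a
      refine (Filter.eventually_cofinite.mp
        ((FiniteAdeleRing.isUnit_iff.mp a.isUnit).2.and hd0)).subset fun v hv => ?_
      rintro ⟨h1, h2⟩
      refine hv ?_
      simp [ord, h1, h2]
    have hbound : ∀ a, diagW V a ≠ 0 → ∀ v ∉ S,
        Valued.v ((a : Adf K) v) ≤ exp ((d v : ℤ)) := fun a ha v hv =>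
      hd v _ (hf.charTrivAt h𝔫 he (heS v hv) ha)
    have hex : ∃ a, diagW V a ≠ 0 := by
      by_contra hh
      push Not at hh
      exact hne (hf.eq_zero h𝔫 hh)
    obtain ⟨a₀, ha₀⟩ := hex
    obtain ⟨a, ha, hamin⟩ := (InvImage.wf (fun a => ∑ᶠ v, ord a v) Nat.lt_wfRel.wf).has_min
      {a | diagW V a ≠ 0} ⟨a₀, ha₀⟩
    refine ⟨a, ha, fun v hv hP => ?_⟩
    have hdec : ∀ j : ℕ, 0 < j → diagW V (a * (ideleAt v (piLoc v))⁻¹ ^ j) = 0 := by
      intro j hj
      by_contra hne'
      refine hamin _ hne' ?_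
      show ∑ᶠ w, ord (a * (ideleAt v (piLoc v))⁻¹ ^ j) w < ∑ᶠ w, ord a w
      have hval : ∀ w, ((a * (ideleAt v (piLoc v))⁻¹ ^ j : (Adf K)ˣ) : Adf K) w =
          (a : Adf K) w * (if w = v then (loc w (pi v : K))⁻¹ ^ j else 1) := by
        intro w
        rw [inv_pow, show ideleAt v (piLoc v) = ideleAtHom v (piLoc v) from rfl,
          ← map_pow (ideleAtHom v), ← map_inv]
        rw [Units.val_mul, adele_mul_apply]
        congr 1
        split_ifs with hw
        · subst hw
          rw [show ideleAtHom w ((piLoc w ^ j)⁻¹) = ideleAt w ((piLoc w ^ j)⁻¹) from rfl,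
            ideleAt_self, Units.val_inv_eq_inv_val, Units.val_pow_eq_pow_val, inv_pow]
          rfl
        · exact ideleAt_of_ne _ hw
      have h1 : ord (a * (ideleAt v (piLoc v))⁻¹ ^ j) v + j = ord a v := by
        have hb := hbound _ hne' v hv
        have hav : Valued.v ((a : Adf K) v) ≠ 0 :=
          (Valuation.ne_zero_iff _).mpr ((FiniteAdeleRing.isUnit_iff.mp a.isUnit).1 v)
        simp only [ord, if_neg hv, hval, if_true]
        rw [hval, if_pos rfl, map_mul, map_pow, map_inv₀, valued_uniformizer, ← exp_neg,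
          ← exp_nsmul, ← exp_log hav, ← exp_add, exp_le_exp] at hb
        rw [map_mul, map_pow, map_inv₀, valued_uniformizer, ← exp_neg, ← exp_nsmul,
          log_mul hav exp_ne_zero, log_exp]
        simp only [neg_neg, nsmul_eq_mul, mul_one] at hb ⊢
        omega
      have h2 : ∀ w, w ≠ v → ord (a * (ideleAt v (piLoc v))⁻¹ ^ j) w = ord a w := fun w hw => by
        simp only [ord, hval, if_neg hw, mul_one]
      set s := (hsupp a).toFinset ∪ {v}
      have hs : ∀ b, (∀ w, w ≠ v → ord b w = ord a w) →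
          Function.support (ord b) ⊆ ↑s := by
        intro b hb w hw
        rcases eq_or_ne w v with rfl | hwv
        · simp [s]
        · simp [s, hwv, ← hb w hwv]
          exact hw
      rw [finsum_eq_sum_of_support_subset _ (hs _ h2),
        finsum_eq_sum_of_support_subset _ (hs a fun _ _ => rfl)]
      refine Finset.sum_lt_sum (fun w _ => ?_) ⟨v, by simp [s], by omega⟩
      rcases eq_or_ne w v with rfl | hw
      · omega
      · rw [h2 w hw]
    have key := hf.hecke h𝔫 hv hP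
    rw [inv_mul_cancel_right] at key
    have h1 : diagW V (a * (ideleAt v (piLoc v))⁻¹) = 0 := by
      simpa using hdec 1 one_pos
    have h2 : diagW V (a * (ideleAt v (piLoc v))⁻¹ * (ideleAt v (piLoc v))⁻¹) = 0 := by
      have := hdec 2 two_pos
      rwa [pow_two, ← mul_assoc] at this
    rw [h1, h2, add_zero, mul_zero] at key
    have : Finite (𝓞 K ⧸ v.asIdeal) := Ideal.finiteQuotientOfFreeOfNeBot _ v.ne_bot
    exact ha ((mul_eq_zero.mp key).resolve_left (Nat.cast_ne_zero.mpr Nat.card_pos.ne'))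
  obtain ⟨a, ha, hamin⟩ := hmin h hφ
  refine ⟨diagW W' a / diagW W a, ?_⟩
  set c := diagW W' a / diagW W a with hc
  have hD := h.sub_mul h' c
  by_contra hne
  have hne' : (fun x g => φ' x g - c * φ x g) ≠ 0 := fun h0 => hne (funext fun x => funext fun g =>
    sub_eq_zero.mp (congrFun (congrFun h0 x) g))
  obtain ⟨b, hb, hbmin⟩ := hmin hD hne'
  have ha0 : ∀ v, Valued.v ((a : Adf K) v) ≠ 0 := fun v =>
    (Valuation.ne_zero_iff _).mpr ((FiniteAdeleRing.isUnit_iff.mp a.isUnit).1 v)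
  have hb0 : ∀ v, Valued.v ((b : Adf K) v) ≠ 0 := fun v =>
    (Valuation.ne_zero_iff _).mpr ((FiniteAdeleRing.isUnit_iff.mp b.isUnit).1 v)
  have hlow : ∀ {a b : (Adf K)ˣ} (v : HeightOneSpectrum (𝓞 K)),
      Valued.v ((a : Adf K) v) < Valued.v ((b : Adf K) v) →
      Valued.v (((a * (ideleAt v (piLoc v))⁻¹ : (Adf K)ˣ) : Adf K) v) ≤
        Valued.v ((b : Adf K) v) := by
    intro a b v hlt
    have hav : Valued.v ((a : Adf K) v) ≠ 0 :=
      (Valuation.ne_zero_iff _).mpr ((FiniteAdeleRing.isUnit_iff.mp a.isUnit).1 v)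
    have hbv : Valued.v ((b : Adf K) v) ≠ 0 :=
      (Valuation.ne_zero_iff _).mpr ((FiniteAdeleRing.isUnit_iff.mp b.isUnit).1 v)
    have hi : ((ideleAt v (piLoc v))⁻¹ : (Adf K)ˣ) = ideleAt v (piLoc v)⁻¹ :=
      (map_inv (ideleAtHom v) (piLoc v)).symm
    rw [Units.val_mul, adele_mul_apply, hi, ideleAt_self, Units.val_inv_eq_inv_val, map_mul,
      map_inv₀, show ((piLoc v : (v.adicCompletion K)ˣ) : v.adicCompletion K) = loc v (pi v : K)
        from rfl, valued_uniformizer]
    rw [← exp_log hav, ← exp_log hbv] at hlt ⊢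
    rw [exp_lt_exp] at hlt
    rw [← exp_neg, ← exp_add, exp_le_exp]
    omega
  have hnear : ∀ v, Valued.v (((b * a⁻¹ : (Adf K)ˣ) : Adf K) v - 1) ≤ exp (-(e v : ℤ)) ∧
      Valued.v (((b * a⁻¹ : (Adf K)ˣ) : Adf K) v) = 1 := by
    intro v
    have hval : ((b * a⁻¹ : (Adf K)ˣ) : Adf K) v = (b : Adf K) v / (a : Adf K) v := by
      have hne : (a : Adf K) v ≠ 0 := (FiniteAdeleRing.isUnit_iff.mp a.isUnit).1 v
      rw [eq_div_iff hne, ← adele_mul_apply, ← Units.val_mul, inv_mul_cancel_right]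
    rw [hval]
    have hne : (a : Adf K) v ≠ 0 := (FiniteAdeleRing.isUnit_iff.mp a.isUnit).1 v
    by_cases hv : v ∈ S
    · have hlt := h.valued_sub_lt hD h𝔫 hv (hψ v hv) ha hb
      have h1 : Valued.v ((b : Adf K) v) = Valued.v ((a : Adf K) v) :=
        Valuation.map_eq_of_sub_lt _ hlt
      refine ⟨?_, by rw [map_div₀, h1, div_self (ha0 v)]⟩
      rw [div_sub_one hne, map_div₀, div_le_iff₀ (zero_lt_iff.mpr (ha0 v))]
      rcases eq_or_ne ((b : Adf K) v - (a : Adf K) v) 0 with h0 | h0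
      · rw [h0, map_zero]; exact zero_le
      have hs0 : Valued.v ((b : Adf K) v - (a : Adf K) v) ≠ 0 := (Valuation.ne_zero_iff _).mpr h0
      rw [← exp_log (ha0 v), ← exp_log hs0] at hlt ⊢
      rw [exp_lt_exp] at hlt
      rw [← exp_add, exp_le_exp]
      have := heS' v hv
      omega
    · have h1 : Valued.v ((b : Adf K) v) = Valued.v ((a : Adf K) v) := by
        rcases lt_trichotomy (Valued.v ((b : Adf K) v)) (Valued.v ((a : Adf K) v)) with
          hlt | heq | hlt
        · exact absurd (charTrivAt_of_le (hlow v hlt) (h.charTrivAt h𝔫 he (heS v hv) ha))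
            (hbmin v hv)
        · exact heq
        · exact absurd (charTrivAt_of_le (hlow v hlt) (hD.charTrivAt h𝔫 he (heS v hv) hb))
            (hamin v hv)
      refine ⟨?_, by rw [map_div₀, h1, div_self (ha0 v)]⟩
      rw [heS v hv, Nat.cast_zero, neg_zero, exp_zero]
      refine (Valuation.map_sub _ _ _).trans (max_le ?_ (map_one _).le)
      rw [map_div₀, h1, div_self (ha0 v)]
  have hk : upperTri (b * a⁻¹) (0 : Adf K) 1 ∈ congrSubgroup 𝔫 := by
    refine mem_congrSubgroup_of_small he (fun i j => ?_) (fun i j => ?_)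
    · fin_cases i <;> fin_cases j <;> simp [upperTri]
      exact fun v => by rw [adele_sub_apply, adele_one_apply]; exact (hnear v).1
    · rw [upperTri_inv]
      fin_cases i <;> fin_cases j <;> simp [upperTri]
      intro v
      rw [adele_sub_apply, adele_one_apply]
      obtain ⟨h1, h2⟩ := hnear v
      set u := ((b * a⁻¹ : (Adf K)ˣ) : Adf K) v with hu
      have hinv : (((b * a⁻¹)⁻¹ : (Adf K)ˣ) : Adf K) v = u⁻¹ := by
        refine eq_inv_of_mul_eq_one_left ?_
        rw [hu, ← adele_mul_apply, ← Units.val_mul, inv_mul_cancel]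
        rfl
      rw [← Units.val_mul, show a * b⁻¹ = (b * a⁻¹)⁻¹ by rw [mul_inv_rev, inv_inv], hinv]
      have hu0 : u ≠ 0 := fun h0 => by rw [h0, map_zero] at h2; exact zero_ne_one h2
      rw [show u⁻¹ - 1 = -(u - 1) / u by field_simp; ring, map_div₀, Valuation.map_neg, h2,
        div_one]
      exact h1
  refine hb ?_
  have heq : upperTri b (0 : Adf K) 1 = upperTri a 0 1 * upperTri (b * a⁻¹) 0 1 := by
    rw [upperTri_mul]
    simp [mul_comm b]
  show W' (upperTri b 0 1) - c * W (upperTri b 0 1) = 0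
  rw [heq, h.mul_congr hk, h'.mul_congr hk, hc]
  show diagW W' a - diagW W' a / diagW W a * diagW W a = 0
  rw [div_mul_cancel₀ _ ha, sub_self]

end FermatAgent.LT
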