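import Fermat.Agent.LT.MultOne.Coeff
import Fermat.Agent.LT.Base.Residue

set_option autoImplicit false

/-!
# Multiplicity one on the sextic field
-/

noncomputable section

open NumberField IsDedekindDomain WithZero Filter

namespace FermatAgent.LT

section General

variable {K : Type*} [Field K] [NumberField K]

theorem transl_add (v : HeightOneSpectrum (𝓞 K)) (a b : 𝓞 K) :
    transl v (a + b) = transl v a * transl v b := by
  rw [transl, transl, transl, ← map_mul, upperTri_mul, mul_one]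
  congr 2
  push_cast
  ring

theorem isLevelExp_radical {c : 𝓞 K} (hc : c ≠ 0) {v : HeightOneSpectrum (𝓞 K)} {k : ℕ}
    (h : (Ideal.span {c}).radical ≤ v.asIdeal ^ k) : k ≤ 1 ∧ (c ∉ v.asIdeal → k = 0) := by
  classical
  have hmem : c ∈ (Ideal.span {c}).radical := Ideal.le_radical (Ideal.mem_span_singleton_self c)
  refine ⟨?_, fun hv => ?_⟩
  · by_contra hk
    rw [not_le] at hk
    have h2 : (Ideal.span {c}).radical ≤ v.asIdeal ^ 2 := h.trans (Ideal.pow_le_pow_right hk)
    set I := Ideal.span {c} with hI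
    have hI0 : I ≠ ⊥ := by simpa [hI] using hc
    set fs := (UniqueFactorizationMonoid.normalizedFactors I).toFinset
    set J : Ideal (𝓞 K) := ∏ P ∈ fs, P with hJ
    have hJle : J ≤ I.radical := by
      rw [Ideal.radical_eq_sInf]
      refine le_sInf fun P ⟨hIP, hP⟩ => ?_
      have hPb : P ≠ ⊥ := fun h0 => hI0 (le_bot_iff.mp (h0 ▸ hIP))
      obtain ⟨Q, hQ, hQP⟩ := UniqueFactorizationMonoid.exists_mem_normalizedFactors_of_dvd hI0
        (Ideal.prime_iff_isPrime hPb |>.mpr hP).irreducible (Ideal.dvd_iff_le.mpr hIP)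
      rw [associated_iff_eq] at hQP
      subst hQP
      exact Ideal.prod_le_inf.trans (Finset.inf_le (Multiset.mem_toFinset.mpr hQ))
    have hdvd : v.asIdeal ^ 2 ∣ J := Ideal.dvd_iff_le.mpr (hJle.trans h2)
    have hvP : Prime v.asIdeal := Ideal.prime_of_isPrime v.ne_bot v.isPrime
    by_cases hmemv : v.asIdeal ∈ fs
    · rw [hJ, ← Finset.mul_prod_erase _ _ hmemv, pow_two,
        mul_dvd_mul_iff_left v.ne_bot] at hdvd
      obtain ⟨P, hP, hvd⟩ := hvP.exists_mem_finset_dvd hdvd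
      rw [Finset.mem_erase, Multiset.mem_toFinset] at hP
      exact hP.1 (associated_iff_eq.mp (hvP.associated_of_dvd
        (UniqueFactorizationMonoid.prime_of_normalized_factor P hP.2) hvd)).symm
    · obtain ⟨P, hP, hvd⟩ := hvP.exists_mem_finset_dvd ((dvd_pow_self _ two_ne_zero).trans hdvd)
      rw [Multiset.mem_toFinset] at hP
      have := associated_iff_eq.mp (hvP.associated_of_dvd
        (UniqueFactorizationMonoid.prime_of_normalized_factor P hP) hvd)
      exact hmemv (Multiset.mem_toFinset.mpr (this ▸ hP))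
  · by_contra hk
    exact hv (Ideal.pow_le_self hk (h hmem))

end General

/-- Multiplicity one, in terms of the properties used. -/
theorem Setup.multOne (S : Setup) (Ψ : ∀ v : HeightOneSpectrum (𝓞 S.K),
      AddChar (𝓞 S.K ⧸ v.asIdeal) ℂ)
    (hΨ : ∀ v : HeightOneSpectrum (𝓞 S.K), ((3 * S.m : ℕ) : 𝓞 S.K) ∈ v.asIdeal → Ψ v ≠ 1)
    {G G' : XInf S.F → GAf S.F → ℂ} (hG : G ≠ 0)
    (hc : IsCuspFn (S.levelIdeal S.F) G) (hc' : IsCuspFn (S.levelIdeal S.F) G')
    (hψ : ∀ H ∈ ({G, G'} : Set _), ∀ w : HeightOneSpectrum (𝓞 S.F),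
      ((3 * S.m : ℕ) : 𝓞 S.F) ∈ w.asIdeal →
      ∀ v : HeightOneSpectrum (𝓞 S.K), v.asIdeal = w.asIdeal.comap
        (NumberField.RingOfIntegers.mapRingHom
          (IntermediateField.inclusion S.K_le_F).toRingHom) →
        ∀ x g (b : 𝓞 S.K), H x (g * transl w (NumberField.RingOfIntegers.mapRingHom
          (IntermediateField.inclusion S.K_le_F).toRingHom b)) =
            Ψ v (Ideal.Quotient.mk v.asIdeal b) * H x g)
    (heig : ∀ H ∈ ({G, G'} : Set _), ∀ w : HeightOneSpectrum (𝓞 S.F),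
      ((3 * S.m : ℕ) : 𝓞 S.F) ∉ w.asIdeal →
      ∀ σ, IsFrobOver w σ → IsEigenAt w H (q8Trace (S.ρ σ) : ℂ)) :
    ∃ a : ℂ, G' = a • G := by
  classical
  set ι : 𝓞 S.K →+* 𝓞 S.F := NumberField.RingOfIntegers.mapRingHom
    (IntermediateField.inclusion S.K_le_F).toRingHom with hι
  let T : Set (HeightOneSpectrum (𝓞 S.F)) := {w | ((3 * S.m : ℕ) : 𝓞 S.F) ∈ w.asIdeal}
  have h3m : (3 * S.m : ℕ) ≠ 0 := mul_ne_zero three_ne_zero S.m_squarefree.ne_zero
  have hc3 : ((3 * S.m : ℕ) : 𝓞 S.F) ≠ 0 := Nat.cast_ne_zero.mpr h3m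
  have h𝔫 : S.levelIdeal S.F ≠ ⊥ := fun h0 => hc3 (by
    have := Ideal.le_radical (Ideal.mem_span_singleton_self ((3 * S.m : ℕ) : 𝓞 S.F))
    rw [show (Ideal.span {((3 * S.m : ℕ) : 𝓞 S.F)}).radical = ⊥ from h0] at this
    simpa using this)
  let e : HeightOneSpectrum (𝓞 S.F) → ℕ := fun w => if w ∈ T then 1 else 0
  have he : IsLevelExp (S.levelIdeal S.F) e := fun w k hk => by
    obtain ⟨h1, h2⟩ := isLevelExp_radical hc3 hk
    simp only [e]
    split_ifs with hw
    · exact h1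
    · exact (h2 hw).le
  let under : ∀ w ∈ T, HeightOneSpectrum (𝓞 S.K) := fun w hw =>
    ⟨w.asIdeal.comap ι, Ideal.comap_isPrime ι w.asIdeal, fun h0 => by
      have : ((3 * S.m : ℕ) : 𝓞 S.K) ∈ w.asIdeal.comap ι := by
        rw [Ideal.mem_comap, map_natCast]; exact hw
      rw [h0, Ideal.mem_bot, Nat.cast_eq_zero] at this
      exact h3m this⟩
  let ψ : HeightOneSpectrum (𝓞 S.F) → 𝓞 S.F → ℂ := fun w o =>
    if hw : w ∈ T then Ψ (under w hw) (Ideal.Quotient.mk _ (S.surjective_residue w hw o).choose)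
    else 1
  choose σ hσ using exists_isFrobOver S.F
  let l : HeightOneSpectrum (𝓞 S.F) → ℂ := fun w => (q8Trace (S.ρ (σ w)) : ℂ)
  have hdata : ∀ H ∈ ({G, G'} : Set _), IsCuspFn (S.levelIdeal S.F) H →
      ∃ W, CoeffData (S.levelIdeal S.F) T ψ l H W := by
    intro H hH hcH
    obtain ⟨W, hW⟩ := hcH.expansion
    refine ⟨W, hcH.rational, hcH.central, hcH.level, hW, fun w hw x g o => ?_,
      fun w hw => heig H hH w hw _ (hσ w)⟩
    set b := (S.surjective_residue w hw o).choose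
    have hb : o - ι b ∈ w.asIdeal := (S.surjective_residue w hw o).choose_spec
    have hsmall : transl w (o - ι b) ∈ congrSubgroup (S.levelIdeal S.F) := by
      rw [transl, atPlace_upperTri, ideleAt_one]
      refine (isNearOne_upperUni (updAt_mem_smallAdeles ?_)).mem_congrSubgroup he
      rw [valued_loc, HeightOneSpectrum.valuation_of_algebraMap,
        show e w = 1 from if_pos hw, w.intValuation_le_pow_iff_mem, pow_one]
      exact hb
    have hsplit : transl w o = transl w (ι b) * transl w (o - ι b) := by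
      rw [← transl_add]; congr 1; ring
    rw [hsplit, ← mul_assoc, hcH.level _ hsmall, hψ H hH w hw (under w hw) rfl x g b]
    simp only [ψ, dif_pos hw]
    rfl
  obtain ⟨W, hW⟩ := hdata G (Set.mem_insert _ _) hc
  obtain ⟨W', hW'⟩ := hdata G' (Set.mem_insert_of_mem _ rfl) hc'
  refine hW.exists_smul hW' h𝔫 he (fun w hw => if_neg hw)
    (fun w hw => (if_pos hw).le) (fun w hw => ?_) hG
  have h3 : ((3 * S.m : ℕ) : 𝓞 S.K) ∈ (under w hw).asIdeal := by
    show _ ∈ w.asIdeal.comap ι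
    rw [Ideal.mem_comap, map_natCast]; exact hw
  obtain ⟨c, hc⟩ := AddChar.ne_one_iff.mp (hΨ _ h3)
  obtain ⟨b, rfl⟩ := Ideal.Quotient.mk_surjective c
  refine ⟨ι b, ?_⟩
  simp only [ψ, dif_pos hw]
  rwa [show Ideal.Quotient.mk (under w hw).asIdeal (S.surjective_residue w hw (ι b)).choose =
    Ideal.Quotient.mk _ b from by
      rw [Ideal.Quotient.eq]
      show _ ∈ w.asIdeal.comap ι
      rw [Ideal.mem_comap, map_sub, ← neg_mem_iff, neg_sub]
      exact (S.surjective_residue w hw (ι b)).choose_spec]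

end FermatAgent.LT
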