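import Fermat.Agent.LT.Base.Quotient
import Fermat.Agent.LT.Base.FiniteAdele

set_option autoImplicit false

/-!
# Small adeles, congruence subgroups and conjugation
-/

noncomputable section

open NumberField IsDedekindDomain WithZero Filter
open scoped nonZeroDivisors

namespace FermatAgent.LT

variable {K : Type*} [Field K] [NumberField K]

theorem adele_sub_apply (a b : Adf K) (w : HeightOneSpectrum (𝓞 K)) : (a - b) w = a w - b w := rfl

theorem adele_neg_apply (a : Adf K) (w : HeightOneSpectrum (𝓞 K)) : (-a) w = -a w := rfl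

theorem adele_one_apply (w : HeightOneSpectrum (𝓞 K)) : (1 : Adf K) w = 1 := rfl

theorem adele_zero_apply (w : HeightOneSpectrum (𝓞 K)) : (0 : Adf K) w = 0 := rfl

theorem adele_algebraMap_apply (k : K) (w : HeightOneSpectrum (𝓞 K)) :
    algebraMap K (Adf K) k w = loc w k := rfl

/-- Adeles with valuation at most `exp (-e v)` at every place. -/
def smallAdeles (e : HeightOneSpectrum (𝓞 K) → ℕ) : AddSubgroup (Adf K) where
  carrier := {x | ∀ v : HeightOneSpectrum (𝓞 K), Valued.v (x v) ≤ exp (-(e v : ℤ))}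
  zero_mem' := fun v => by rw [adele_zero_apply, map_zero]; exact zero_le
  add_mem' := fun {x y} hx hy v => by
    rw [adele_add_apply]
    exact (Valuation.map_add _ _ _).trans (max_le (hx v) (hy v))
  neg_mem' := fun {x} hx v => by
    rw [adele_neg_apply, Valuation.map_neg]
    exact hx v

theorem mul_mem_smallAdeles {e : HeightOneSpectrum (𝓞 K) → ℕ} {x y : Adf K}
    (hx : x ∈ smallAdeles e) (hy : y ∈ smallAdeles 0) : x * y ∈ smallAdeles e := fun v => by
  rw [adele_mul_apply, map_mul]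
  refine (mul_le_mul' (hx v) (hy v)).trans_eq ?_
  simp

theorem one_mem_smallAdeles_zero : (1 : Adf K) ∈ smallAdeles 0 := fun v => by
  simp [adele_one_apply]

theorem smallAdeles_anti {e e' : HeightOneSpectrum (𝓞 K) → ℕ} (h : e ≤ e') :
    smallAdeles e' ≤ smallAdeles e := fun _ hx v =>
  (hx v).trans (exp_le_exp.mpr (neg_le_neg (Int.ofNat_le.mpr (h v))))

/-- `e` bounds the exponents of `𝔫`. -/
def IsLevelExp (𝔫 : Ideal (𝓞 K)) (e : HeightOneSpectrum (𝓞 K) → ℕ) : Prop :=
  ∀ (v : HeightOneSpectrum (𝓞 K)) (k : ℕ), 𝔫 ≤ v.asIdeal ^ k → k ≤ e v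

theorem mem_map_pi_of_small {𝔫 : Ideal (𝓞 K)} {e : HeightOneSpectrum (𝓞 K) → ℕ}
    (he : IsLevelExp 𝔫 e) {x : IntAd K}
    (hx : ∀ v, Valued.v (x v : v.adicCompletion K) ≤ exp (-(e v : ℤ))) :
    x ∈ 𝔫.map (RingHom.pi fun v : HeightOneSpectrum (𝓞 K) =>
      algebraMap (𝓞 K) (v.adicCompletionIntegers K)) := by
  classical
  obtain ⟨t, ht⟩ := IsNoetherian.noetherian 𝔫
  have htmem : ∀ a ∈ t, a ∈ 𝔫 := fun a ha => ht ▸ Ideal.subset_span ha
  have hex : ∀ v : HeightOneSpectrum (𝓞 K), (x v : v.adicCompletion K) ≠ 0 →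
      ∃ a ∈ t, Valued.v (x v : v.adicCompletion K) ≤ Valued.v (loc v (a : K)) := by
    intro v hv
    by_contra h
    push Not at h
    have h0 : Valued.v (x v : v.adicCompletion K) ≠ 0 := (Valuation.ne_zero_iff _).mpr hv
    obtain ⟨j, hj⟩ : ∃ j : ℕ, Valued.v (x v : v.adicCompletion K) = exp (-(j : ℤ)) := by
      refine ⟨(-log (Valued.v (x v : v.adicCompletion K))).toNat, ?_⟩
      have hle : log (Valued.v (x v : v.adicCompletion K)) ≤ 0 := by
        rw [← exp_le_exp, exp_log h0]
        exact (hx v).trans (exp_le_exp.mpr (by omega))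
      rw [Int.toNat_of_nonneg (by omega), neg_neg, exp_log h0]
    have hsub : 𝔫 ≤ v.asIdeal ^ (j + 1) := by
      rw [← ht, Ideal.span_le]
      intro a ha
      rw [SetLike.mem_coe, ← v.intValuation_le_pow_iff_mem]
      have h1 := h a ha
      rw [valued_loc, HeightOneSpectrum.valuation_of_algebraMap, hj] at h1
      rcases eq_or_ne a 0 with rfl | ha0
      · simp
      obtain ⟨i, hi⟩ : ∃ i : ℤ, v.intValuation a = exp i :=
        ⟨_, (exp_log (v.intValuation_ne_zero a ha0)).symm⟩
      rw [hi, exp_lt_exp] at h1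
      rw [hi, exp_le_exp]
      push_cast
      omega
    have h2 := he v _ hsub
    have h3 := hx v
    rw [hj, exp_le_exp] at h3
    omega
  let c : HeightOneSpectrum (𝓞 K) → 𝓞 K := fun v =>
    if h : (x v : v.adicCompletion K) ≠ 0 then (hex v h).choose else 0
  let r : 𝓞 K → IntAd K := fun a v =>
    if h : c v = a ∧ (x v : v.adicCompletion K) ≠ 0 then
      ⟨(x v : v.adicCompletion K) / loc v (a : K), by
        obtain ⟨hc, hne⟩ := h
        have hs := (hex v hne).choose_spec.2
        rw [show c v = (hex v hne).choose from dif_pos hne] at hc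
        rw [hc] at hs
        rw [HeightOneSpectrum.mem_adicCompletionIntegers, map_div₀]
        exact div_le_one_of_le₀ hs zero_le⟩
    else 0
  have hsum : x = ∑ a ∈ t, r a * RingHom.pi (fun v : HeightOneSpectrum (𝓞 K) =>
      algebraMap (𝓞 K) (v.adicCompletionIntegers K)) a := by
    refine funext fun v => ?_
    rw [Finset.sum_apply]
    by_cases hv : (x v : v.adicCompletion K) = 0
    · rw [Finset.sum_eq_zero fun a _ => ?_]
      · exact Subtype.ext hv
      · show r a v * _ = 0
        refine mul_eq_zero_of_left ?_ _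
        exact dif_neg fun hh => hh.2 hv
    · have hc : c v = (hex v hv).choose := dif_pos hv
      obtain ⟨hct, hcv⟩ := (hex v hv).choose_spec
      rw [Finset.sum_eq_single (c v)]
      · refine Subtype.ext ?_
        show (x v : v.adicCompletion K) = ((r (c v) v : v.adicCompletionIntegers K) : v.adicCompletion K) *
          loc v ((c v : 𝓞 K) : K)
        have hne : loc v ((c v : 𝓞 K) : K) ≠ 0 := fun h0 => by
          rw [← hc, h0, map_zero, nonpos_iff_eq_zero, map_eq_zero] at hcv
          exact hv hcv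
        simp only [r, ne_eq, hv, not_false_eq_true, and_self, dite_true]
        rw [div_mul_cancel₀ _ hne]
      · intro a _ hne
        show r a v * _ = 0
        simp [r, Ne.symm hne]
      · intro hnot
        exact absurd (hc ▸ hct) hnot
  rw [hsum]
  exact Ideal.sum_mem _ fun a ha => Ideal.mul_mem_left _ _ (Ideal.mem_map_of_mem _ (htmem a ha))

theorem small_zero_mem_integers {x : Adf K} (hx : x ∈ smallAdeles (0 : HeightOneSpectrum (𝓞 K) → ℕ))
    (v : HeightOneSpectrum (𝓞 K)) : x v ∈ v.adicCompletionIntegers K := by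
  have := hx v
  rw [HeightOneSpectrum.mem_adicCompletionIntegers]
  simpa using this

/-- A sufficient condition for membership in a congruence subgroup. -/
theorem mem_congrSubgroup_of_small {𝔫 : Ideal (𝓞 K)} {e : HeightOneSpectrum (𝓞 K) → ℕ}
    (he : IsLevelExp 𝔫 e) {g : GAf K}
    (hg : ∀ i j, (g i j) - (1 : Matrix (Fin 2) (Fin 2) (Adf K)) i j ∈ smallAdeles e)
    (hg' : ∀ i j, ((g⁻¹ : GAf K) i j) - (1 : Matrix (Fin 2) (Fin 2) (Adf K)) i j ∈ smallAdeles e) :
    g ∈ congrSubgroup 𝔫 := by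
  have h0 : ∀ (h : GAf K), (∀ i j, (h i j) - (1 : Matrix (Fin 2) (Fin 2) (Adf K)) i j ∈ smallAdeles e) →
      ∀ i j v, (h i j) v ∈ v.adicCompletionIntegers K := by
    intro h hh i j v
    refine small_zero_mem_integers ?_ v
    have h1 := smallAdeles_anti (e := 0) (fun w => Nat.zero_le (e w)) (hh i j)
    have h2 : (1 : Matrix (Fin 2) (Fin 2) (Adf K)) i j ∈ smallAdeles 0 := by
      rw [Matrix.one_apply]
      split_ifs
      exacts [one_mem_smallAdeles_zero, zero_mem _]
    simpa using add_mem h1 h2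
  let A : Matrix (Fin 2) (Fin 2) (IntAd K) := Matrix.of fun i j v => ⟨(g i j) v, h0 g hg i j v⟩
  let B : Matrix (Fin 2) (Fin 2) (IntAd K) :=
    Matrix.of fun i j v => ⟨((g⁻¹ : GAf K) i j) v, h0 _ hg' i j v⟩
  have hprod : ∀ (C D : Matrix (Fin 2) (Fin 2) (IntAd K)) (C' D' : GAf K),
      (∀ i j v, ((C i j v : _) : v.adicCompletion K) = (C' i j) v) →
      (∀ i j v, ((D i j v : _) : v.adicCompletion K) = (D' i j) v) → C' * D' = 1 → C * D = 1 := by
    intro C D C' D' hC hD hCD
    refine Matrix.ext fun i j => funext fun v => Subtype.ext ?_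
    have h := congrArg (fun M : GAf K => ((M : Matrix (Fin 2) (Fin 2) (Adf K)) i j) v) hCD
    simp only [Matrix.GeneralLinearGroup.coe_mul, Units.val_one, Matrix.mul_apply, Fin.sum_univ_two,
      adele_add_apply, adele_mul_apply, Matrix.one_apply, Pi.add_apply, Pi.mul_apply] at h ⊢
    push_cast
    rw [hC, hC, hD, hD, h]
    split_ifs <;> rfl
  let k : GL (Fin 2) (IntAd K) := ⟨A, B, hprod A B g g⁻¹ (fun _ _ _ => rfl) (fun _ _ _ => rfl)
    (mul_inv_cancel g), hprod B A g⁻¹ g (fun _ _ _ => rfl) (fun _ _ _ => rfl) (inv_mul_cancel g)⟩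
  refine ⟨k, ?_, Units.ext (Matrix.ext fun i j => FiniteAdeleRing.ext _ fun v => rfl)⟩
  refine MonoidHom.mem_ker.mpr (Units.ext (Matrix.ext fun i j => ?_))
  show Ideal.Quotient.mk _ (A i j) = (1 : Matrix (Fin 2) (Fin 2) _) i j
  rw [← Matrix.map_one (Ideal.Quotient.mk _) (map_zero _) (map_one _), Matrix.map_apply,
    Ideal.Quotient.eq]
  refine mem_map_pi_of_small he fun v => ?_
  have h := hg i j v
  rw [adele_sub_apply] at h
  refine le_of_eq_of_le (congrArg Valued.v ?_) h
  rw [Matrix.one_apply, Matrix.one_apply]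
  split_ifs <;> rfl

/-- Every nonzero ideal has an exponent bound which vanishes almost everywhere. -/
theorem exists_levelExp {𝔫 : Ideal (𝓞 K)} (h : 𝔫 ≠ ⊥) :
    ∃ e : HeightOneSpectrum (𝓞 K) → ℕ, IsLevelExp 𝔫 e ∧ ∀ᶠ v in cofinite, e v = 0 := by
  classical
  refine ⟨fun v => (ordAt v 𝔫).toNat, fun v k hk => ?_, ?_⟩
  · simp only [ordAt, FractionalIdeal.count_coe K v h, Int.toNat_natCast]
    exact (Associates.prime_pow_dvd_iff_le (Associates.mk_ne_zero.mpr h)
      (Associates.irreducible_mk.mpr v.irreducible)).mp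
      (by rw [← Associates.mk_pow, Associates.mk_le_mk_iff_dvd]; exact Ideal.dvd_iff_le.mpr hk)
  · filter_upwards [eventually_ordAt_eq_zero h] with v hv
    simp [hv]

/-- Conjugation by a fixed element maps a small congruence neighbourhood into a given one. -/
theorem exists_conj_small (g : GAf K) (e : HeightOneSpectrum (𝓞 K) → ℕ)
    (he : ∀ᶠ v in cofinite, e v = 0) :
    ∃ e' : HeightOneSpectrum (𝓞 K) → ℕ, (∀ᶠ v in cofinite, e' v = 0) ∧
      ∀ A : Matrix (Fin 2) (Fin 2) (Adf K), (∀ i j, A i j ∈ smallAdeles e') →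
        ∀ i j, ((g : Matrix (Fin 2) (Fin 2) (Adf K)) * A *
          ((g⁻¹ : GAf K) : Matrix (Fin 2) (Fin 2) (Adf K))) i j ∈ smallAdeles e := by
  have hb : ∀ x : Adf K, ∃ c : HeightOneSpectrum (𝓞 K) → ℕ, (∀ᶠ v in cofinite, c v = 0) ∧
      ∀ v, Valued.v (x v) ≤ exp ((c v : ℤ)) := by
    intro x
    refine ⟨fun v => (log (Valued.v (x v))).toNat, ?_, fun v => ?_⟩
    · filter_upwards [x.2] with v hv
      rcases eq_or_ne (Valued.v (x v)) 0 with h | h
      · simp [h]
      · have hv' : Valued.v (x v) ≤ exp 0 := by rw [exp_zero]; exact hv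
        rw [← exp_log h, exp_le_exp] at hv'
        omega
    · rcases eq_or_ne (Valued.v (x v)) 0 with h | h
      · rw [h]; exact zero_le
      · refine le_of_eq_of_le (exp_log h).symm ?_
        rw [exp_le_exp]
        exact Int.self_le_toNat _
  choose c hc0 hc using hb
  refine ⟨fun v => e v + (Finset.univ.sum fun p : Fin 2 × Fin 2 => c (g p.1 p.2) v) +
      (Finset.univ.sum fun p : Fin 2 × Fin 2 => c ((g⁻¹ : GAf K) p.1 p.2) v), ?_, ?_⟩
  · have h1 := fun h : GAf K => Filter.eventually_all.mpr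
      fun p : Fin 2 × Fin 2 => hc0 (h p.1 p.2)
    filter_upwards [he, h1 g, h1 g⁻¹] with v h2 h3 h4
    simp [h2, h3, h4, -Matrix.coe_units_inv]
  · intro A hA i j
    rw [Matrix.mul_apply]
    refine sum_mem fun l _ => ?_
    rw [Matrix.mul_apply, Finset.sum_mul]
    refine sum_mem fun k _ v => ?_
    have hik := Finset.single_le_sum (f := fun p : Fin 2 × Fin 2 => c (g p.1 p.2) v)
      (fun _ _ => Nat.zero_le _) (Finset.mem_univ (i, k))
    have hlj := Finset.single_le_sum (f := fun p : Fin 2 × Fin 2 => c ((g⁻¹ : GAf K) p.1 p.2) v)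
      (fun _ _ => Nat.zero_le _) (Finset.mem_univ (l, j))
    rw [adele_mul_apply, adele_mul_apply, map_mul, map_mul]
    refine (mul_le_mul' (mul_le_mul' (hc _ v) (hA k l v)) (hc _ v)).trans ?_
    rw [← exp_add, ← exp_add, exp_le_exp]
    simp only [Nat.cast_add] at hik hlj ⊢
    omega

end FermatAgent.LT
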