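import Mathlib

set_option autoImplicit false

/-!
# Absolutely convergent sums of characters of a complex vector space determine their coefficients
-/

noncomputable section

open MeasureTheory
open scoped Real ComplexConjugate

namespace FermatAgent.LT.MultOne

variable {ι : Type*} [Finite ι] {N : Type*}

attribute [local instance] Fintype.ofFinite

/-- The pairing `∑ 2 Re (p_i u_i)`. -/
def waveDot (p u : ι → ℂ) : ℝ := ∑ i, 2 * (p i * u i).re

/-- `exp (2πi ∑ 2 Re (p_i u_i))`. -/
def waveChar (p u : ι → ℂ) : ℂ := Complex.exp (2 * π * Complex.I * (waveDot p u : ℂ))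

theorem norm_waveChar (p u : ι → ℂ) : ‖waveChar p u‖ = 1 := by
  rw [waveChar, Complex.norm_exp]; simp

theorem waveChar_conj (p u : ι → ℂ) : conj (waveChar p u) = waveChar p (-u) := by
  rw [waveChar, waveChar, ← Complex.exp_conj]
  congr 1
  simp only [map_mul, map_ofNat, Complex.conj_ofReal, Complex.conj_I, waveDot]
  simp only [Pi.neg_apply, mul_neg, Complex.neg_re, Finset.sum_neg_distrib, Complex.ofReal_neg]
  ring

theorem exists_waveDot (L : StrongDual ℝ (ι → ℂ)) :
    ∃ u : ι → ℂ, ∀ p : ι → ℂ, L p = 2 * π * waveDot p u := by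
  classical
  refine ⟨fun i => (((L (Pi.single i (1 : ℂ)) : ℝ) : ℂ) -
    Complex.I * ((L (Pi.single i Complex.I) : ℝ) : ℂ)) / ((4 * π : ℝ) : ℂ), fun p => ?_⟩
  have hp : p = ∑ i : ι, ((p i).re • (Pi.single i (1 : ℂ) : ι → ℂ) +
      (p i).im • (Pi.single i Complex.I : ι → ℂ)) := by
    refine funext fun j => ?_
    simp only [Finset.sum_apply, Pi.add_apply, Pi.smul_apply, Pi.single_apply]
    rw [Finset.sum_eq_single j (fun i _ hne => by simp [Ne.symm hne]) (by simp)]
    simp [Complex.real_smul]
  conv_lhs => rw [hp, map_sum]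
  rw [waveDot, Finset.mul_sum]
  refine Finset.sum_congr rfl fun i _ => ?_
  rw [map_add, map_smul, map_smul, smul_eq_mul, smul_eq_mul]
  set a : ℝ := L (Pi.single i (1 : ℂ))
  set b : ℝ := L (Pi.single i Complex.I)
  rw [show p i * ((((a : ℝ) : ℂ) - Complex.I * ((b : ℝ) : ℂ)) / ((4 * π : ℝ) : ℂ)) =
    (p i * (((a : ℝ) : ℂ) - Complex.I * ((b : ℝ) : ℂ))) / ((4 * π : ℝ) : ℂ) by ring,
    Complex.div_ofReal_re]
  simp [Complex.mul_re, Complex.mul_im]
  field_simp
  ring

theorem real_coeff_eq_zero {p : N → ι → ℂ} (hp : Function.Injective p) {b : N → ℝ}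
    (hb' : Summable fun n => |b n|)
    (h : ∀ u, HasSum (fun n => (b n : ℂ) * waveChar (p n) u) 0) : ∀ n, b n = 0 := by
  let μ : (N → ℝ) → Measure (ι → ℂ) := fun c =>
    Measure.sum fun n => ENNReal.ofReal (c n) • Measure.dirac (p n)
  have hpos : Summable fun n => max (b n) 0 :=
    Summable.of_nonneg_of_le (fun n => le_max_right _ _)
      (fun n => max_le (le_abs_self _) (abs_nonneg _)) hb'
  have hneg : Summable fun n => max (-b n) 0 :=
    Summable.of_nonneg_of_le (fun n => le_max_right _ _)
      (fun n => max_le (neg_le_abs _) (abs_nonneg _)) hb'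
  have hfin : ∀ c : N → ℝ, (∀ n, 0 ≤ c n) → Summable c → IsFiniteMeasure (μ c) := by
    intro c hc0 hc
    refine ⟨?_⟩
    simp only [μ, Measure.sum_apply _ MeasurableSet.univ, Measure.smul_apply, measure_univ,
      smul_eq_mul, mul_one, ← ENNReal.ofReal_tsum_of_nonneg hc0 hc]
    exact ENNReal.ofReal_lt_top
  have hchar : ∀ c : N → ℝ, (∀ n, 0 ≤ c n) → Summable c → ∀ L : StrongDual ℝ (ι → ℂ),
      HasSum (fun n => (c n : ℂ) * Complex.exp (L (p n) * Complex.I)) (charFunDual (μ c) L) := by
    intro c hc0 hc L
    have := hfin c hc0 hc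
    have hint : Integrable (fun v => Complex.exp (L v * Complex.I)) (μ c) :=
      Integrable.of_bound (by fun_prop) 1 (Filter.Eventually.of_forall fun v => by
        rw [Complex.norm_exp_ofReal_mul_I])
    rw [charFunDual_apply, integral_sum_measure hint]
    simp only [integral_smul_measure, integral_dirac, Complex.real_smul,
      ENNReal.toReal_ofReal (hc0 _)]
    exact (Summable.of_norm (by
      refine hc.congr fun n => ?_
      rw [norm_mul, Complex.norm_exp_ofReal_mul_I, mul_one, Complex.norm_real,
        Real.norm_of_nonneg (hc0 n)])).hasSum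
  have hchar_eq : charFunDual (μ fun n => max (b n) 0) = charFunDual (μ fun n => max (-b n) 0) := by
    refine funext fun L => ?_
    obtain ⟨u, hu⟩ := exists_waveDot L
    have he : ∀ n, Complex.exp (L (p n) * Complex.I) = waveChar (p n) u := fun n => by
      rw [waveChar, hu]; congr 1; push_cast; ring
    have h1 := hchar _ (fun n => le_max_right _ _) hpos L
    have h2 := hchar _ (fun n => le_max_right _ _) hneg L
    have h3 := h1.sub h2
    have h4 : HasSum (fun n => (b n : ℂ) * waveChar (p n) u)
        (charFunDual (μ fun n => max (b n) 0) L - charFunDual (μ fun n => max (-b n) 0) L) := by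
      refine h3.congr_fun fun n => ?_
      rw [he, ← sub_mul, ← Complex.ofReal_sub, max_zero_sub_max_neg_zero_eq_self]
    exact sub_eq_zero.mp (h4.unique (h u))
  have := hfin _ (fun n => le_max_right _ _) hpos
  have := hfin _ (fun n => le_max_right _ _) hneg
  have hμ := Measure.ext_of_charFunDual hchar_eq
  intro n
  have key : ∀ c : N → ℝ, μ c {p n} = ENNReal.ofReal (c n) := by
    intro c
    simp only [μ, Measure.sum_apply _ (measurableSet_singleton _), Measure.smul_apply,
      smul_eq_mul, Measure.dirac_apply' _ (measurableSet_singleton _)]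
    rw [tsum_eq_single n fun m hm => by simp [hp.ne hm]]
    simp
  have h1 := congrArg (fun ν : Measure (ι → ℂ) => ν {p n}) hμ
  simp only [key] at h1
  have h2 := congrArg ENNReal.toReal h1
  rw [ENNReal.toReal_ofReal (le_max_right _ _), ENNReal.toReal_ofReal (le_max_right _ _)] at h2
  have := max_zero_sub_max_neg_zero_eq_self (b n)
  linarith

/-- The coefficients of an absolutely convergent sum of characters are unique. -/
theorem coeff_eq_zero {p : N → ι → ℂ} (hp : Function.Injective p) {a : N → ℂ}
    (h : ∀ u, HasSum (fun n => a n * waveChar (p n) u) 0) : ∀ n, a n = 0 := by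
  have ha : Summable fun n => ‖a n‖ := by
    have h1 := (h 0).summable.norm
    refine h1.congr fun n => ?_
    rw [norm_mul, norm_waveChar, mul_one]
  have hc : ∀ u, HasSum (fun n => conj (a n) * waveChar (p n) u) 0 := by
    intro u
    have := (h (-u)).map (starRingEnd ℂ) Complex.continuous_conj
    rw [map_zero] at this
    refine this.congr_fun fun n => ?_
    simp [map_mul, waveChar_conj]
  have hre : ∀ n, (a n).re = 0 := by
    refine real_coeff_eq_zero hp ?_ fun u => ?_
    · exact Summable.of_nonneg_of_le (fun n => abs_nonneg _) (fun n => (a n).abs_re_le_norm) ha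
    · have := ((h u).add (hc u)).div_const 2
      rw [add_zero, zero_div] at this
      refine this.congr_fun fun n => ?_
      rw [← add_mul, Complex.add_conj]
      push_cast
      ring
  have him : ∀ n, (a n).im = 0 := by
    refine real_coeff_eq_zero hp ?_ fun u => ?_
    · exact Summable.of_nonneg_of_le (fun n => abs_nonneg _) (fun n => (a n).abs_im_le_norm) ha
    · have := ((h u).sub (hc u)).div_const (2 * Complex.I)
      rw [sub_zero, zero_div] at this
      refine this.congr_fun fun n => ?_
      rw [← sub_mul, Complex.sub_conj]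
      field_simp
      push_cast
      ring
  exact fun n => Complex.ext (hre n) (him n)

end FermatAgent.LT.MultOne
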